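import Fermat.Prelude.Def_EllipticCurve_FrobeniusTrace
import Fermat.Prelude.Def_FLTPrelim_Ramification
import Mathlib.NumberTheory.Cyclotomic.CyclotomicCharacter
import Mathlib.RingTheory.RootsOfUnity.AlgebraicallyClosed

/-!
# Galois action on roots of unity of prime-to-`ℓ` order, and the mod `n` cyclotomic character
-/

set_option autoImplicit false

open scoped Pointwise

namespace Fermat.Agent.Datum

local notation "ℚbar" => AlgebraicClosure ℚ
local notation "Γℚ" => AlgebraicClosure ℚ ≃ₐ[ℚ] AlgebraicClosure ℚ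

section RootsMod

variable {A : ValuationSubring ℚbar} {ℓ n : ℕ}

theorem mem_of_pow_eq_one (A : ValuationSubring ℚbar) {n : ℕ} (hn : n ≠ 0) {μ : ℚbar}
    (hμ : μ ^ n = 1) : μ ∈ A := by
  rcases A.mem_or_inv_mem μ with h | h
  · exact h
  · have : μ = (μ⁻¹) ^ (n - 1) := by
      rw [inv_pow]
      refine eq_inv_of_mul_eq_one_left ?_
      rw [← pow_succ', Nat.sub_add_cancel (Nat.one_le_iff_ne_zero.mpr hn), hμ]
    rw [this]
    exact pow_mem h _

/-- Roots of unity of order prime to `ℓ` are distinct modulo a place over `ℓ`. -/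
theorem eq_one_of_sub_one_mem_nonunits (hA : A.LiesOverPrime ℓ) (hln : ℓ.Coprime n) (hn : n ≠ 0)
    {ζ : ℚbar} (hζ : ζ ^ n = 1) (h : ζ - 1 ∈ A.nonunits) : ζ = 1 := by
  by_contra hne
  have hsum : ∑ i ∈ Finset.range n, ζ ^ i = 0 := by
    have := geom_sum_mul ζ n
    rw [hζ, sub_self] at this
    exact (mul_eq_zero.mp this).resolve_right (sub_ne_zero.mpr hne)
  have hζA : ζ ∈ A := mem_of_pow_eq_one A hn hζ
  set z : A := ⟨ζ, hζA⟩
  have hz : IsLocalRing.residue A z = 1 := by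
    rw [← map_one (IsLocalRing.residue A), ← sub_eq_zero, ← map_sub,
      IsLocalRing.residue_eq_zero_iff, ← ValuationSubring.coe_mem_nonunits_iff]
    exact h
  have h0 : ((n : ℕ) : IsLocalRing.ResidueField A) = 0 := by
    have hz0 : (∑ i ∈ Finset.range n, z ^ i : A) = 0 := Subtype.ext (by simpa [z] using hsum)
    have := congrArg (IsLocalRing.residue A) hz0
    simpa [map_sum, hz] using this
  have hl0 : ((ℓ : ℕ) : IsLocalRing.ResidueField A) = 0 := by
    rw [← map_natCast (IsLocalRing.residue A), IsLocalRing.residue_eq_zero_iff,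
      ← ValuationSubring.coe_mem_nonunits_iff]
    simpa [ValuationSubring.LiesOverPrime] using hA
  obtain ⟨u, v, huv⟩ := (Nat.isCoprime_iff_coprime.mpr hln : IsCoprime (ℓ : ℤ) (n : ℤ))
  have := congrArg (Int.cast : ℤ → IsLocalRing.ResidueField A) huv
  push_cast at this
  rw [h0, hl0] at this
  simp at this

/-- A Frobenius element at a place over `ℓ` raises roots of unity of order prime to `ℓ` to the
`ℓ`-th power. -/
theorem frobenius_apply_root (hA : A.LiesOverPrime ℓ) {τ : Γℚ} (hτ : A.IsFrobeniusAt τ ℓ)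
    (hln : ℓ.Coprime n) (hn : n ≠ 0) {μ : ℚbar} (hμ : μ ^ n = 1) : τ μ = μ ^ ℓ := by
  have hμ0 : μ ≠ 0 := by
    rintro rfl
    simp [zero_pow hn] at hμ
  have hτμ : τ μ ∈ A := mem_of_pow_eq_one A hn (by rw [← map_pow, hμ, map_one])
  have hμA : μ ∈ A := mem_of_pow_eq_one A hn hμ
  have hμA' : (μ ^ ℓ)⁻¹ ∈ A :=
    mem_of_pow_eq_one A hn (by rw [inv_pow, ← pow_mul, mul_comm, pow_mul, hμ, one_pow, inv_one])
  have h1 : IsLocalRing.residue A ⟨τ μ, hτμ⟩ = IsLocalRing.residue A ⟨μ ^ ℓ, pow_mem hμA ℓ⟩ :=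
    hτ.smul_residue_eq (IsLocalRing.residue A ⟨μ, hμA⟩)
  have h2 : τ μ * (μ ^ ℓ)⁻¹ = 1 := by
    refine eq_one_of_sub_one_mem_nonunits hA hln hn ?_ ?_
    · rw [mul_pow, inv_pow, ← map_pow, hμ, map_one, one_mul, ← pow_mul, mul_comm ℓ, pow_mul, hμ,
        one_pow, inv_one]
    · have : (((⟨τ μ, hτμ⟩ - ⟨μ ^ ℓ, pow_mem hμA ℓ⟩) * ⟨(μ ^ ℓ)⁻¹, hμA'⟩ : A) : ℚbar) ∈
          A.nonunits := by
        rw [ValuationSubring.coe_mem_nonunits_iff, ← IsLocalRing.residue_eq_zero_iff, map_mul,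
          map_sub, h1, sub_self, zero_mul]
      simpa [sub_mul, mul_inv_cancel₀ (pow_ne_zero ℓ hμ0)] using this
  exact (mul_inv_eq_one₀ (pow_ne_zero ℓ hμ0)).mp h2

/-- Inertia at a place over `ℓ` fixes roots of unity of order prime to `ℓ`. -/
theorem inertia_apply_root (hA : A.LiesOverPrime ℓ) {σ : Γℚ} (hσ : σ ∈ A.inertiaSubgroupIn ℚ)
    (hln : ℓ.Coprime n) (hn : n ≠ 0) {μ : ℚbar} (hμ : μ ^ n = 1) : σ μ = μ := by
  obtain ⟨⟨s, hs⟩, hsi, rfl⟩ := hσ
  have hμ0 : μ ≠ 0 := by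
    rintro rfl
    simp [zero_pow hn] at hμ
  have hsμ : s μ ∈ A := mem_of_pow_eq_one A hn (by rw [← map_pow, hμ, map_one])
  have hμA : μ ∈ A := mem_of_pow_eq_one A hn hμ
  have hμA' : μ⁻¹ ∈ A := mem_of_pow_eq_one A hn (by rw [inv_pow, hμ, inv_one])
  have h1 : IsLocalRing.residue A ⟨s μ, hsμ⟩ = IsLocalRing.residue A ⟨μ, hμA⟩ :=
    DFunLike.congr_fun (MonoidHom.mem_ker.mp hsi) (IsLocalRing.residue A ⟨μ, hμA⟩)
  have h2 : s μ * μ⁻¹ = 1 := by
    refine eq_one_of_sub_one_mem_nonunits hA hln hn ?_ ?_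
    · rw [mul_pow, inv_pow, ← map_pow, hμ, map_one, inv_one, one_mul]
    · have : (((⟨s μ, hsμ⟩ - ⟨μ, hμA⟩) * ⟨μ⁻¹, hμA'⟩ : A) : ℚbar) ∈ A.nonunits := by
        rw [ValuationSubring.coe_mem_nonunits_iff, ← IsLocalRing.residue_eq_zero_iff, map_mul,
          map_sub, h1, sub_self, zero_mul]
      simpa [sub_mul, mul_inv_cancel₀ hμ0] using this
  exact (mul_inv_eq_one₀ hμ0).mp h2

end RootsMod

section Chi

variable (n : ℕ) [NeZero n]

theorem natCard_roots : Nat.card { x // x ∈ rootsOfUnity n ℚbar } = n :=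
  HasEnoughRootsOfUnity.natCard_rootsOfUnity ℚbar n

/-- The mod `n` cyclotomic character of the absolute Galois group of `ℚ`. -/
noncomputable def chiMod : Γℚ →* ZMod n where
  toFun σ := ((modularCyclotomicCharacter ℚbar (natCard_roots n) σ.toRingEquiv : (ZMod n)ˣ) :
    ZMod n)
  map_one' := by
    rw [show (1 : Γℚ).toRingEquiv = 1 from rfl, map_one, Units.val_one]
  map_mul' σ τ := by
    rw [show (σ * τ).toRingEquiv = σ.toRingEquiv * τ.toRingEquiv from rfl, map_mul, Units.val_mul]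

theorem chiMod_spec (σ : Γℚ) {μ : ℚbar} (hμ : μ ^ n = 1) : σ μ = μ ^ (chiMod n σ).val := by
  have hu : IsUnit μ := IsUnit.of_pow_eq_one hμ (NeZero.ne n)
  have := modularCyclotomicCharacter.spec ℚbar (natCard_roots n) σ.toRingEquiv
    (t := hu.unit) (by rw [mem_rootsOfUnity]; ext; simpa using hμ)
  simpa [chiMod] using this

theorem chiMod_eq_natCast (σ : Γℚ) {a : ℕ} (ha : ∀ μ : ℚbar, μ ^ n = 1 → σ μ = μ ^ a) :
    chiMod n σ = (a : ZMod n) := by
  refine (modularCyclotomicCharacter.unique ℚbar (natCard_roots n) σ.toRingEquiv ?_).symm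
  intro t ht
  have ht' : (t : ℚbar) ^ n = 1 := by
    rw [mem_rootsOfUnity] at ht
    simpa using congrArg Units.val ht
  rw [ZMod.val_natCast, ← pow_eq_pow_mod a ht']
  exact ha _ ht'

theorem chiMod_frobenius {A : ValuationSubring ℚbar} {ℓ : ℕ} (hA : A.LiesOverPrime ℓ) {τ : Γℚ}
    (hτ : A.IsFrobeniusAt τ ℓ) (hln : ℓ.Coprime n) : chiMod n τ = (ℓ : ZMod n) :=
  chiMod_eq_natCast n τ fun _ hμ => frobenius_apply_root hA hτ hln (NeZero.ne n) hμ

theorem chiMod_inertia {A : ValuationSubring ℚbar} {ℓ : ℕ} (hA : A.LiesOverPrime ℓ) {σ : Γℚ}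
    (hσ : σ ∈ A.inertiaSubgroupIn ℚ) (hln : ℓ.Coprime n) : chiMod n σ = 1 := by
  have := chiMod_eq_natCast n σ (a := 1) fun μ hμ => by
    rw [pow_one]
    exact inertia_apply_root hA hσ hln (NeZero.ne n) hμ
  simpa using this

/-- The cyclotomic character mod `n` has finite level. -/
theorem exists_level_chiMod : ∃ L : IntermediateField ℚ ℚbar, FiniteDimensional ℚ L ∧
    ∀ σ : Γℚ, (∀ x ∈ L, σ x = x) → chiMod n σ = 1 := by
  obtain ⟨ζ, hζ⟩ := HasEnoughRootsOfUnity.exists_primitiveRoot ℚbar n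
  refine ⟨IntermediateField.adjoin ℚ {ζ},
    IntermediateField.adjoin.finiteDimensional (IsIntegral.of_pow (NeZero.pos n) (by rw [hζ.pow_eq_one]; exact isIntegral_one)), fun σ hσ => ?_⟩
  have := chiMod_eq_natCast n σ (a := 1) fun μ hμ => by
    obtain ⟨i, -, rfl⟩ := hζ.eq_pow_of_pow_eq_one hμ
    rw [map_pow, hσ ζ (IntermediateField.mem_adjoin_simple_self ℚ ζ), pow_one]
  simpa using this

end Chi

end Fermat.Agent.Datum
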