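import Fermat.Agent.GaloisAdic.Main
import Mathlib.RingTheory.Filtration

/-!
# Finite levels of the Tate module: matrices mod `pⁿ`, and faithfulness of the Hecke action
-/

set_option autoImplicit false

noncomputable section

namespace Fermat.Agent.Datum

open Fermat.Agent.GaloisAdic
open CuspForm ModularCurve
open scoped Matrix

local notation "ℚbar" => AlgebraicClosure ℚ
local notation "Γℚ" => AlgebraicClosure ℚ ≃ₐ[ℚ] AlgebraicClosure ℚ

variable {N : ℕ} [NeZero N] {p : ℕ} [Fact p.Prime] (F : TorsionFrame N p)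

/-- Galois acting on `J₀(N)[pⁿ]`, in the coordinates of the frame. -/
def levelAct (n : ℕ) : Γℚ →* Matrix (Fin F.H.r) (Fin F.H.r) (ZMod (p ^ n)) :=
  ((PadicInt.toZModPow n).mapMatrix (m := Fin F.H.r)).toMonoidHom.comp F.galMatrix

/-- The Hecke algebra acting on `J₀(N)[pⁿ]`, in the coordinates of the frame. -/
def levelHecke (S : Set ℕ) (n : ℕ) :
    heckeAlgebra N 2 S →+* Matrix (Fin F.H.r) (Fin F.H.r) (ZMod (p ^ n)) :=
  ((Int.castRingHom (ZMod (p ^ n))).mapMatrix.comp F.H.mat).comp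
    (Subalgebra.inclusion (heckeAlgebra_mono (Set.empty_subset S))).toRingHom

theorem toZModPow_mapMatrix_heckeMatrix (n : ℕ) (t : heckeAlgebra N 2 (∅ : Set ℕ)) :
    (PadicInt.toZModPow n).mapMatrix (F.heckeMatrix t) =
      (Int.castRingHom (ZMod (p ^ n))).mapMatrix (F.H.mat t) := by
  ext i j
  simp [TorsionFrame.heckeMatrix]

theorem levelHecke_commute (hF : TorsionFacts N p) (S : Set ℕ) (n : ℕ) (a : heckeAlgebra N 2 S)
    (σ : Γℚ) : Commute (levelHecke F S n a) (levelAct F n σ) := by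
  have h := ((F.commute_galMatrix_heckeMatrix hF.hecke_comm σ
    (Subalgebra.inclusion (heckeAlgebra_mono (Set.empty_subset S)) a)).map
    (PadicInt.toZModPow n).mapMatrix).symm
  rw [toZModPow_mapMatrix_heckeMatrix] at h
  exact h

theorem exists_level_levelAct (hF : TorsionFacts N p) (n : ℕ) :
    ∃ L : IntermediateField ℚ ℚbar, FiniteDimensional ℚ L ∧
      ∀ σ : Γℚ, (∀ y ∈ L, σ y = y) → levelAct F n σ = 1 := by
  obtain ⟨L, hL, h⟩ := F.galMatrix_continuous hF.smooth n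
  refine ⟨L, hL, fun σ hσ => ?_⟩
  rw [← sub_eq_zero]
  have h' : (PadicInt.toZModPow n).mapMatrix (F.galMatrix σ - 1) =
      (0 : Matrix (Fin F.H.r) (Fin F.H.r) (ZMod (p ^ n))) := by
    ext i j
    exact h σ hσ i j
  rw [map_sub, map_one] at h'
  exact h'

theorem levelAct_eq_one (n : ℕ) {σ : Γℚ}
    (h : ∀ x : JZero N, p ^ n • x = 0 → σ • x = x) : levelAct F n σ = 1 := by
  refine Matrix.ext_of_mulVec_single fun i => ?_
  refine (F.isTorsionIso n).injective ?_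
  show F.e n ((F.galMatrix σ).map (PadicInt.toZModPow n) *ᵥ _) = _
  rw [F.e_galMatrix, Matrix.one_mulVec]
  exact h _ (((F.isTorsionIso n).mem_range_iff _).mp ⟨_, rfl⟩)

omit [Fact p.Prime] in
theorem levelHecke_T (S : Set ℕ) (n : ℕ) {ℓ : ℕ} (hℓ : ℓ.Prime) (hℓN : ¬ ℓ ∣ N) (hℓS : ℓ ∉ S) :
    levelHecke F S n (heckeAlgebra.T hℓ hℓN hℓS) = F.H.genMod (p ^ n) ⟨ℓ, hℓ⟩ := by
  show (F.H.mat (Subalgebra.inclusion _ _)).map (Int.castRingHom (ZMod (p ^ n))) =
    (F.H.mat (heckeGenAt N ⟨ℓ, hℓ⟩)).map (Int.castRingHom (ZMod (p ^ n)))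
  have hgen : heckeGenAt N ⟨ℓ, hℓ⟩ =
      heckeAlgebra.T (S := (∅ : Set ℕ)) hℓ hℓN (Set.notMem_empty _) := dif_neg hℓN
  rw [hgen]
  rfl

theorem levelAct_frobenius (hF : TorsionFacts N p) (S : Set ℕ) (n : ℕ) {ℓ : ℕ} (hℓ : ℓ.Prime)
    (hℓN : ¬ ℓ ∣ N) (hℓS : ℓ ∉ S) (hℓp : ℓ ≠ p) {A : ValuationSubring ℚbar}
    (hA : A.LiesOverPrime ℓ) {τ : Γℚ} (hτ : A.IsFrobeniusAt τ ℓ) :
    levelAct F n τ * levelAct F n τ
      - levelHecke F S n (heckeAlgebra.T hℓ hℓN hℓS) * levelAct F n τ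
      + levelHecke F S n (ℓ : heckeAlgebra N 2 S) = 0 := by
  have h := congrArg (PadicInt.toZModPow n).mapMatrix
    (F.galMatrix_quadratic ⟨ℓ, hℓ⟩ fun m x hx => hF.frobenius ⟨ℓ, hℓ⟩ hℓN hℓp A hA τ hτ m x hx)
  rw [map_zero, map_add, map_sub, map_mul, map_mul, toZModPow_mapMatrix_heckeMatrix,
    map_natCast] at h
  rw [levelHecke_T, map_natCast]
  exact h

omit [Fact p.Prime] in
/-- Faithfulness at finite levels. -/
theorem exists_level (S : Set ℕ) (n : ℕ) :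
    ∃ K, ∀ a : heckeAlgebra N 2 S, levelHecke F S K a = 0 →
      a ∈ Ideal.span {((p ^ n : ℕ) : heckeAlgebra N 2 S)} := by
  let f : heckeAlgebra N 2 S →+* Matrix (Fin F.H.r) (Fin F.H.r) ℤ :=
    F.H.mat.comp (Subalgebra.inclusion (heckeAlgebra_mono (Set.empty_subset S))).toRingHom
  have hf : Function.Injective f := F.H.injective.comp (Subalgebra.inclusion_injective _)
  let M : Submodule ℤ (Matrix (Fin F.H.r) (Fin F.H.r) ℤ) :=
    LinearMap.range f.toAddMonoidHom.toIntLinearMap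
  obtain ⟨k, hk⟩ := Ideal.exists_pow_inf_eq_pow_smul (Ideal.span {(p : ℤ)}) M
  refine ⟨n + k, fun a ha => ?_⟩
  have hdiv : ∀ i j, ((p : ℤ) ^ (n + k)) ∣ f a i j := by
    intro i j
    have h1 : ((f a i j : ℤ) : ZMod (p ^ (n + k))) = 0 := congrFun (congrFun ha i) j
    simpa using (ZMod.intCast_zmod_eq_zero_iff_dvd _ _).mp h1
  choose c hc using hdiv
  have hmem : f a ∈ Ideal.span {(p : ℤ)} ^ (n + k) •
      (⊤ : Submodule ℤ (Matrix (Fin F.H.r) (Fin F.H.r) ℤ)) ⊓ M := by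
    refine ⟨?_, a, rfl⟩
    have hfa : f a = (p : ℤ) ^ (n + k) • (Matrix.of c) := by
      ext i j
      simpa using hc i j
    rw [hfa, Ideal.span_singleton_pow]
    exact Submodule.smul_mem_smul (Ideal.mem_span_singleton_self _) Submodule.mem_top
  rw [hk (n + k) (Nat.le_add_left k n), Nat.add_sub_cancel] at hmem
  have hmem' : f a ∈ Ideal.span {(p : ℤ) ^ n} • M := by
    rw [← Ideal.span_singleton_pow]
    exact Submodule.smul_mono le_rfl inf_le_right hmem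
  rw [Submodule.ideal_span_singleton_smul, Submodule.mem_smul_pointwise_iff_exists] at hmem'
  obtain ⟨_, ⟨y, rfl⟩, hy⟩ := hmem'
  refine Ideal.mem_span_singleton'.mpr ⟨y, hf ?_⟩
  rw [← hy, map_mul, map_natCast]
  show f y * ((p ^ n : ℕ) : Matrix (Fin F.H.r) (Fin F.H.r) ℤ) = ((p : ℤ) ^ n) • f y
  rw [zsmul_eq_mul, ← (Nat.cast_commute _ (f y)).eq]
  simp

end Fermat.Agent.Datum
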