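import Fermat.Agent.Datum.Powers
import Fermat.Agent.Datum.Roots
import Fermat.Agent.Datum.Levels
import Fermat.Agent.Density.Main
import Fermat.Agent.RepLemmas.Galois
import Fermat.Prelude.Def_CuspForm_HeckeAlgebra
import Fermat.Prelude.Def_CuspForm_HeckeGaloisRepDatum
import Fermat.Prelude.Def_GaloisRep_LocalConditions
import Mathlib.Data.ZMod.QuotientRing

/-!
# Comparison of a Hecke–Galois datum with the torsion of `J₀(N)`

For an ideal `I` of `T` containing a power of the maximal ideal and a level `K` whose annihilator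
in the Hecke algebra maps into `I`, every linear relation satisfied by Galois and Hecke on
`J₀(N)[pᴷ]` holds for `ρ` modulo `I`.
-/

set_option autoImplicit false

noncomputable section

namespace Fermat.Agent.Datum

open Fermat.Agent.GaloisAdic
open CuspForm ModularCurve
open Matrix

local notation "ℚbar" => AlgebraicClosure ℚ
local notation "Γℚ" => AlgebraicClosure ℚ ≃ₐ[ℚ] AlgebraicClosure ℚ

theorem apply_eq_of_agree {M : Type*} [Monoid M] (f : Γℚ →* M) (L : IntermediateField ℚ ℚbar)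
    (hf : ∀ σ : Γℚ, (∀ x ∈ L, σ x = x) → f σ = 1) {σ τ : Γℚ} (h : ∀ x ∈ L, σ x = τ x) :
    f σ = f τ := by
  have h1 : f (τ⁻¹ * σ) = 1 := hf _ fun x hx => by
    rw [AlgEquiv.mul_apply, h x hx, ← AlgEquiv.mul_apply, inv_mul_cancel, AlgEquiv.one_apply]
  calc f σ = f (τ * (τ⁻¹ * σ)) := by rw [mul_inv_cancel_left]
    _ = f τ := by rw [map_mul, h1, mul_one]

section Rep

variable {T : Type} [CommRing T] [IsLocalRing T] (ρ : GaloisRepAdic T)

/-- A basis of the space of a representation. -/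
def repBasis : Module.Basis (Fin 2) T ρ.V := Module.finBasisOfFinrankEq T ρ.V ρ.finrank_eq

/-- The representation by matrices modulo an ideal. -/
def repMod (I : Ideal T) : Γℚ →* Matrix (Fin 2) (Fin 2) (T ⧸ I) :=
  ((Ideal.Quotient.mk I).mapMatrix (m := Fin 2)).toMonoidHom.comp
    ((LinearMap.toMatrixAlgEquiv (repBasis ρ)).toRingEquiv.toRingHom.toMonoidHom.comp ρ.ρ)

theorem repMod_apply (I : Ideal T) (σ : Γℚ) :
    repMod ρ I σ =
      (Ideal.Quotient.mk I).mapMatrix (LinearMap.toMatrixAlgEquiv (repBasis ρ) (ρ.ρ σ)) :=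
  rfl

theorem mem_smul_top_iff_repr (I : Ideal T) (v : ρ.V) :
    v ∈ I • (⊤ : Submodule T ρ.V) ↔ ∀ i, (repBasis ρ).repr v i ∈ I := by
  constructor
  · intro hv i
    refine Submodule.smul_induction_on hv (fun a ha w _ => ?_) fun x y hx hy => ?_
    · rw [map_smul, Finsupp.smul_apply, smul_eq_mul]
      exact I.mul_mem_right _ ha
    · rw [map_add, Finsupp.add_apply]
      exact I.add_mem hx hy
  · intro hv
    rw [← (repBasis ρ).sum_repr v]
    exact Submodule.sum_mem _ fun i _ => Submodule.smul_mem_smul (hv i) Submodule.mem_top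

/-- Coordinates of vectors modulo `I`. -/
def repCoord (I : Ideal T) : ρ.V →+ (Fin 2 → T ⧸ I) where
  toFun v i := Ideal.Quotient.mk I ((repBasis ρ).repr v i)
  map_zero' := by ext i; simp
  map_add' v w := by ext i; simp

theorem repCoord_eq_zero_iff (I : Ideal T) (v : ρ.V) :
    repCoord ρ I v = 0 ↔ v ∈ I • (⊤ : Submodule T ρ.V) := by
  rw [mem_smul_top_iff_repr]
  simp [repCoord, funext_iff, Ideal.Quotient.eq_zero_iff_mem]

theorem repCoord_surjective (I : Ideal T) : Function.Surjective (repCoord ρ I) := by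
  intro w
  choose f hf using fun i => Ideal.Quotient.mk_surjective (w i)
  refine ⟨(repBasis ρ).equivFun.symm f, funext fun i => ?_⟩
  show Ideal.Quotient.mk I ((repBasis ρ).equivFun ((repBasis ρ).equivFun.symm f) i) = w i
  rw [LinearEquiv.apply_symm_apply, hf]

theorem repCoord_smul (I : Ideal T) (c : T) (v : ρ.V) :
    repCoord ρ I (c • v) = Ideal.Quotient.mk I c • repCoord ρ I v := by
  ext i
  simp [repCoord]

theorem repCoord_rho (I : Ideal T) (σ : Γℚ) (v : ρ.V) :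
    repCoord ρ I (ρ.ρ σ v) = repMod ρ I σ *ᵥ repCoord ρ I v := by
  ext i
  show Ideal.Quotient.mk I _ = _
  rw [← LinearMap.toMatrix_mulVec_repr (repBasis ρ) (repBasis ρ) (ρ.ρ σ) v,
    RingHom.map_mulVec]
  rfl

theorem exists_level_repMod {I : Ideal T} {m : ℕ} (hI : IsLocalRing.maximalIdeal T ^ m ≤ I) :
    ∃ L : IntermediateField ℚ ℚbar, FiniteDimensional ℚ L ∧
      ∀ σ : Γℚ, (∀ y ∈ L, σ y = y) → repMod ρ I σ = 1 := by
  obtain ⟨L, hL, h⟩ := ρ.isAdicContinuous m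
  refine ⟨L, hL, fun σ hσ => ?_⟩
  refine Matrix.ext_of_mulVec_single fun i => ?_
  obtain ⟨v, hv⟩ := repCoord_surjective ρ I (Pi.single i 1)
  rw [← hv, Matrix.one_mulVec, ← repCoord_rho, ← sub_eq_zero, ← map_sub, repCoord_eq_zero_iff]
  exact Submodule.smul_mono hI le_rfl (h σ hσ v)

theorem span_range_repMod (h : ρ.residual.IsAbsolutelyIrreducible) (I : Ideal T) :
    Submodule.span (T ⧸ I) (Set.range (repMod ρ I)) = ⊤ := by
  rw [eq_top_iff]
  rintro Y -
  obtain ⟨X, rfl⟩ : ∃ X, (Ideal.Quotient.mk I).mapMatrix X = Y := by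
    choose f hf using fun i j => Ideal.Quotient.mk_surjective (Y i j)
    exact ⟨Matrix.of f, Matrix.ext fun i j => hf i j⟩
  obtain ⟨f, rfl⟩ := (LinearMap.toMatrixAlgEquiv (repBasis ρ)).surjective X
  have hf : f ∈ Submodule.span T (Set.range ρ.ρ) := by
    rw [RepLemmas.span_eq_top_of_residual_isAbsolutelyIrreducible ρ h]
    trivial
  induction hf using Submodule.span_induction with
  | mem y hy =>
    obtain ⟨g, rfl⟩ := hy
    exact Submodule.subset_span ⟨g, rfl⟩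
  | zero =>
    rw [map_zero, map_zero]
    exact Submodule.zero_mem _
  | add y y' _ _ iy iy' =>
    rw [map_add, map_add]
    exact Submodule.add_mem _ iy iy'
  | smul b y _ iy =>
    rw [map_smul]
    have : (Ideal.Quotient.mk I).mapMatrix (b • LinearMap.toMatrixAlgEquiv (repBasis ρ) y) =
        Ideal.Quotient.mk I b •
          (Ideal.Quotient.mk I).mapMatrix (LinearMap.toMatrixAlgEquiv (repBasis ρ) y) := by
      ext i j
      simp
    rw [this]
    exact Submodule.smul_mem _ _ iy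

end Rep

/-- A Galois representation over a local ring `T` together with a map from the Hecke algebra
giving its Frobenius characteristic polynomials, residually absolutely irreducible. -/
structure HeckePoint (N : ℕ) [NeZero N] (S : Finset ℕ) (T : Type) [CommRing T] [IsLocalRing T] :
    Type 1 where
  /-- the eigenvalues -/
  π : heckeAlgebra N 2 (↑S : Set ℕ) →+* T
  /-- the representation -/
  ρ : GaloisRepAdic T
  charpoly_frob : ∀ (ℓ : ℕ) (hℓ : ℓ.Prime) (hℓN : ¬ ℓ ∣ N) (hℓS : ℓ ∉ (↑S : Set ℕ)),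
    ∀ A : ValuationSubring (AlgebraicClosure ℚ), A.LiesOverPrime ℓ →
      ∀ σ : AlgebraicClosure ℚ ≃ₐ[ℚ] AlgebraicClosure ℚ, A.IsFrobeniusAt σ ℓ →
        LinearMap.charpoly (ρ.ρ σ) =
          Polynomial.X ^ 2 - Polynomial.C (π (heckeAlgebra.T hℓ hℓN hℓS)) * Polynomial.X
            + Polynomial.C ((ℓ : T))
  residual_absIrr : ρ.residual.IsAbsolutelyIrreducible

variable {p : ℕ} [Fact p.Prime] {N : ℕ} [NeZero N] {S : Finset ℕ}
  {T : Type} [CommRing T] [IsLocalRing T] [IsNoetherianRing T]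

omit [IsNoetherianRing T] in
theorem repMod_frobenius (H : HeckePoint N S T) (I : Ideal T)
    [Nontrivial (T ⧸ I)] {ℓ : ℕ} (hℓ : ℓ.Prime) (hℓN : ¬ ℓ ∣ N) (hℓS : ℓ ∉ (↑S : Set ℕ))
    {A : ValuationSubring ℚbar} (hA : A.LiesOverPrime ℓ) {τ : Γℚ} (hτ : A.IsFrobeniusAt τ ℓ) :
    trace (repMod H.ρ I τ) = Ideal.Quotient.mk I (H.π (heckeAlgebra.T hℓ hℓN hℓS)) ∧
      det (repMod H.ρ I τ) = (ℓ : T ⧸ I) := by
  have h := H.charpoly_frob ℓ hℓ hℓN hℓS A hA τ hτ
  rw [← LinearMap.charpoly_toMatrix (H.ρ.ρ τ) (repBasis H.ρ)] at h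
  obtain ⟨h1, h2⟩ := charpoly_coeffs_fin_two _ h
  constructor
  · rw [← h1, repMod_apply, LinearMap.toMatrixAlgEquiv, AddMonoidHom.map_trace]
    rfl
  · rw [← map_natCast (Ideal.Quotient.mk I), ← h2, RingHom.map_det]
    rfl

/-- The transfer hypotheses follow from their validity at Frobenius elements. -/
theorem transferHyp_of_frobenius {h R B : Type*} [CommRing h] [Ring R] [CommRing B]
    (α : h →+* R) (act : Γℚ →* R) (d : Γℚ →* h) (φ : h →+* B)
    (r : Γℚ →* Matrix (Fin 2) (Fin 2) B) (S : Finset ℕ)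
    (hcomm : ∀ a g, Commute (α a) (act g)) (hker : ∀ a, α a = 0 → φ a = 0)
    (hspan : Submodule.span B (Set.range r) = ⊤)
    (hlev : ∃ L : IntermediateField ℚ ℚbar, FiniteDimensional ℚ L ∧
      ∀ σ : Γℚ, (∀ y ∈ L, σ y = y) → act σ = 1 ∧ d σ = 1 ∧ r σ = 1)
    (hfrob : ∀ ℓ : ℕ, ℓ.Prime → ℓ ∉ S → ∀ A : ValuationSubring ℚbar, A.LiesOverPrime ℓ →
      ∀ τ : Γℚ, A.IsFrobeniusAt τ ℓ → det (r τ) = φ (d τ) ∧
        ∃ c : h, act τ * act τ - α c * act τ + α (d τ) = 0 ∧ trace (r τ) = φ c) :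
    TransferHyp α act d φ r := by
  obtain ⟨L, hL, hfix⟩ := hlev
  have key : ∀ σ : Γℚ, det (r σ) = φ (d σ) ∧
      ∃ c, act σ * act σ - α c * act σ + α (d σ) = 0 ∧ trace (r σ) = φ c := by
    intro σ
    obtain ⟨ℓ, hℓ, hℓS, A, hA, τ, hτ, ⟨k, hk⟩, -⟩ := Density.exists_frobenius_pow σ L S
    obtain ⟨hdet, c, hrel, htr⟩ := hfrob ℓ hℓ hℓS A hA τ hτ
    have ea : act σ = act τ ^ k :=
      (apply_eq_of_agree act L (fun g hg => (hfix g hg).1) hk).trans (map_pow act τ k)
    have ed : d σ = d τ ^ k :=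
      (apply_eq_of_agree d L (fun g hg => (hfix g hg).2.1) hk).trans (map_pow d τ k)
    have er : r σ = r τ ^ k :=
      (apply_eq_of_agree r L (fun g hg => (hfix g hg).2.2) hk).trans (map_pow r τ k)
    refine ⟨?_, powerTrace c (d τ) k, ?_, ?_⟩
    · rw [er, ed, det_pow, hdet, map_pow]
    · rw [ea, ed]
      exact rel_pow α (hcomm c τ) hrel k
    · rw [er, trace_pow_fin_two, htr, hdet, map_powerTrace]
  exact ⟨hcomm, hker, fun σ => (key σ).1, fun σ => (key σ).2, hspan⟩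

variable (F : TorsionFrame N p)

/-- The image of the Hecke algebra at level `K`, as a quotient ring. -/
abbrev LevelAlg (S : Finset ℕ) (K : ℕ) : Type :=
  heckeAlgebra N 2 (↑S : Set ℕ) ⧸ RingHom.ker (levelHecke F (↑S : Set ℕ) K)

/-- The image of the Hecke algebra at level `K`, as matrices. -/
def levelAlpha (S : Finset ℕ) (K : ℕ) :
    LevelAlg F S K →+* Matrix (Fin F.H.r) (Fin F.H.r) (ZMod (p ^ K)) :=
  RingHom.kerLift _

omit [Fact p.Prime] in
theorem levelAlpha_mk (S : Finset ℕ) (K : ℕ) (a : heckeAlgebra N 2 (↑S : Set ℕ)) :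
    levelAlpha F S K (Ideal.Quotient.mk _ a) = levelHecke F (↑S : Set ℕ) K a :=
  rfl

omit [Fact p.Prime] in
theorem natCast_levelAlg_eq_zero (S : Finset ℕ) (K : ℕ) :
    ((p ^ K : ℕ) : LevelAlg F S K) = 0 := by
  refine RingHom.kerLift_injective (levelHecke F (↑S : Set ℕ) K) ?_
  rw [map_natCast, map_zero, ← map_natCast (Matrix.scalar (Fin F.H.r)), ZMod.natCast_self,
    map_zero]

/-- The ring homomorphism from `ZMod (p ^ K)` to the image of the Hecke algebra at level `K`. -/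
def zmodToLevel (S : Finset ℕ) (K : ℕ) : ZMod (p ^ K) →+* LevelAlg F S K :=
  (Ideal.Quotient.lift (Ideal.span {((p ^ K : ℕ) : ℤ)}) (Int.castRingHom (LevelAlg F S K)) (by
    intro a ha
    obtain ⟨c, rfl⟩ := Ideal.mem_span_singleton'.mp ha
    refine (map_mul (Int.castRingHom (LevelAlg F S K)) _ _).trans ?_
    rw [map_natCast, natCast_levelAlg_eq_zero, mul_zero])).comp
    (Int.quotientSpanNatEquivZMod (p ^ K)).symm.toRingHom

/-- The determinant at level `K`. -/
def levelDet (S : Finset ℕ) (K : ℕ) : Γℚ →* LevelAlg F S K :=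
  (zmodToLevel F S K).toMonoidHom.comp (chiMod (p ^ K))

theorem levelDet_eq_natCast (S : Finset ℕ) (K : ℕ) {σ : Γℚ} {a : ℕ}
    (h : chiMod (p ^ K) σ = (a : ZMod (p ^ K))) : levelDet F S K σ = (a : LevelAlg F S K) :=
  (congrArg (zmodToLevel F S K) h).trans (map_natCast _ a)

variable {F}

/-- The map to `T ⧸ I`. -/
def levelPhi (H : HeckePoint N S T) (K : ℕ) {I : Ideal T}
    (hker : ∀ a, levelHecke F (↑S : Set ℕ) K a = 0 → H.π a ∈ I) : LevelAlg F S K →+* T ⧸ I :=
  Ideal.Quotient.lift (RingHom.ker (levelHecke F (↑S : Set ℕ) K))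
    ((Ideal.Quotient.mk I).comp H.π)
    (fun a ha => Ideal.Quotient.eq_zero_iff_mem.mpr (hker a ha))

omit [IsNoetherianRing T] in
/-- The transfer hypotheses at level `K` modulo `I`. -/
theorem transferHyp_level (hF : TorsionFacts N p) (hpS : p ∈ S)
    (hNS : ∀ q : ℕ, q.Prime → q ∣ N → q ∈ S)
    (H : HeckePoint N S T)
    (K : ℕ) {I : Ideal T} {m : ℕ} (hI : IsLocalRing.maximalIdeal T ^ m ≤ I)
    [Nontrivial (T ⧸ I)]
    (hker : ∀ a, levelHecke F (↑S : Set ℕ) K a = 0 → H.π a ∈ I) :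
    TransferHyp (levelAlpha F S K) (levelAct F K) (levelDet F S K) (levelPhi H K hker)
      (repMod H.ρ I) := by
  refine transferHyp_of_frobenius _ _ _ _ _ S ?_ ?_
    (span_range_repMod H.ρ H.residual_absIrr I) ?_ ?_
  · intro a σ
    obtain ⟨a, rfl⟩ := Ideal.Quotient.mk_surjective a
    exact levelHecke_commute F hF _ K a σ
  · intro a ha
    rw [(RingHom.kerLift_injective _) (ha.trans (map_zero (levelAlpha F S K)).symm), map_zero]
  · obtain ⟨L₁, hL₁, h₁⟩ := exists_level_levelAct F hF K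
    obtain ⟨L₂, hL₂, h₂⟩ := exists_level_chiMod (p ^ K)
    obtain ⟨L₃, hL₃, h₃⟩ := exists_level_repMod H.ρ hI
    refine ⟨L₁ ⊔ (L₂ ⊔ L₃), inferInstance, fun σ hσ => ⟨?_, ?_, ?_⟩⟩
    · exact h₁ σ fun x hx => hσ x (SetLike.le_def.mp le_sup_left hx)
    · rw [levelDet_eq_natCast F S K (a := 1)
        (by rw [Nat.cast_one]; exact h₂ σ fun x hx =>
          hσ x (SetLike.le_def.mp (le_sup_left.trans le_sup_right) hx)), Nat.cast_one]
    · exact h₃ σ fun x hx => hσ x (SetLike.le_def.mp (le_sup_right.trans le_sup_right) hx)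
  · intro ℓ hℓ hℓS A hA τ hτ
    have hℓN : ¬ ℓ ∣ N := fun h => hℓS (hNS ℓ hℓ h)
    have hℓp : ℓ ≠ p := fun h => hℓS (h ▸ hpS)
    have hℓS' : ℓ ∉ (↑S : Set ℕ) := by simpa using hℓS
    obtain ⟨htr, hdet⟩ := repMod_frobenius H I hℓ hℓN hℓS' hA hτ
    have hdτ : levelDet F S K τ = (ℓ : LevelAlg F S K) :=
      levelDet_eq_natCast F S K (chiMod_frobenius (p ^ K) hA hτ
        (Nat.Coprime.pow_right K ((Nat.coprime_primes hℓ Fact.out).mpr hℓp)))
    refine ⟨by rw [hdet, hdτ, map_natCast], Ideal.Quotient.mk _ (heckeAlgebra.T hℓ hℓN hℓS'),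
      ?_, htr⟩
    rw [hdτ, levelAlpha_mk, map_natCast, ← map_natCast (levelHecke F (↑S : Set ℕ) K)]
    exact levelAct_frobenius F hF _ K hℓ hℓN hℓS' hℓp hA hτ

omit [Fact p.Prime] [IsNoetherianRing T] in
/-- Annihilators at a high enough level map into a given power of the maximal ideal. -/
theorem exists_level_datum (F : TorsionFrame N p)
    (hpT : (p : T) ∈ IsLocalRing.maximalIdeal T)
    (H : HeckePoint N S T) (m : ℕ) :
    ∃ K, ∀ a, levelHecke F (↑S : Set ℕ) K a = 0 → H.π a ∈ IsLocalRing.maximalIdeal T ^ m := by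
  obtain ⟨K, hK⟩ := exists_level F (↑S : Set ℕ) m
  refine ⟨K, fun a ha => ?_⟩
  obtain ⟨c, rfl⟩ := Ideal.mem_span_singleton'.mp (hK a ha)
  rw [map_mul, map_natCast, Nat.cast_pow]
  exact Ideal.mul_mem_left _ _
    (Ideal.pow_mem_pow hpT m)

omit [IsNoetherianRing T] in
theorem nontrivial_quotient_pow {m : ℕ} (hm : m ≠ 0) :
    Nontrivial (T ⧸ IsLocalRing.maximalIdeal T ^ m) :=
  Ideal.Quotient.nontrivial_iff.mpr fun h => (IsLocalRing.maximalIdeal.isMaximal T).ne_top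
    (top_le_iff.mp (h ▸ Ideal.pow_le_self hm))

theorem eq_zero_of_forall_mem (H : HeckePoint N S T) {v : H.ρ.V}
    (hv : ∀ m, m ≠ 0 → v ∈ IsLocalRing.maximalIdeal T ^ m • (⊤ : Submodule T H.ρ.V)) : v = 0 := by
  have h : v ∈ (⨅ i : ℕ, IsLocalRing.maximalIdeal T ^ i • ⊤ : Submodule T H.ρ.V) := by
    rw [Submodule.mem_iInf]
    intro i
    exact Submodule.smul_mono (Ideal.pow_le_pow_right i.le_succ) le_rfl
      (hv (i + 1) i.succ_ne_zero)
  rwa [Ideal.iInf_pow_smul_eq_bot_of_isLocalRing _ (IsLocalRing.maximalIdeal.isMaximal T).ne_top,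
    Submodule.mem_bot] at h

omit [IsNoetherianRing T] in
theorem isLocalRing_quotient (I : Ideal T) [Nontrivial (T ⧸ I)] : IsLocalRing (T ⧸ I) :=
  IsLocalRing.of_surjective' (Ideal.Quotient.mk I) Ideal.Quotient.mk_surjective

/-- An element fixing all `p`-power torsion of `J₀(N)` is killed by `ρ`. -/
theorem rho_eq_one_of_fixes_torsion_point (hF : TorsionFacts N p) (F : TorsionFrame N p)
    (hpS : p ∈ S) (hpT : (p : T) ∈ IsLocalRing.maximalIdeal T)
    (hNS : ∀ q : ℕ, q.Prime → q ∣ N → q ∈ S)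
    (H : HeckePoint N S T) {σ : Γℚ}
    (hσ : ∀ (n : ℕ) (x : JZero N), p ^ n • x = 0 → σ • x = x) : H.ρ.ρ σ = 1 := by
  refine LinearMap.ext fun v => sub_eq_zero.mp (eq_zero_of_forall_mem H fun m hm => ?_)
  have := nontrivial_quotient_pow (T := T) hm
  have := isLocalRing_quotient (IsLocalRing.maximalIdeal T ^ m)
  obtain ⟨K, hK⟩ := exists_level_datum F hpT H m
  have h1 := (transferHyp_level hF hpS hNS H K le_rfl hK).r_eq_one (g := σ)
    (levelAct_eq_one F K (hσ K))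
  rw [Module.End.one_apply, ← repCoord_eq_zero_iff, map_sub, repCoord_rho, h1,
    Matrix.one_mulVec, sub_self]

section Datum

variable {𝒪 : Type} [CommRing 𝒪] [IsDomain 𝒪] [IsDiscreteValuationRing 𝒪]
  [IsAdicComplete (IsLocalRing.maximalIdeal 𝒪) 𝒪]
  {θ : heckeAlgebra N 2 (↑S : Set ℕ) →+* IsLocalRing.ResidueField 𝒪}
  [IsAdicComplete (IsLocalRing.maximalIdeal T) T] [Algebra 𝒪 T] [IsLocalHom (algebraMap 𝒪 T)]
  [Module.Finite 𝒪 T] [Module.Free 𝒪 T]

/-- A datum gives a point. -/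
@[reducible] def HeckePoint.ofDatum (H : HeckeGaloisRepDatum N (↑S : Set ℕ) 𝒪 θ T) :
    HeckePoint N S T where
  π := H.π
  ρ := H.ρ
  charpoly_frob := H.charpoly_frob
  residual_absIrr := H.residual_absIrr

omit [Fact p.Prime] [IsAdicComplete (IsLocalRing.maximalIdeal 𝒪) 𝒪] [IsNoetherianRing T]
  [IsAdicComplete (IsLocalRing.maximalIdeal T) T] [Module.Finite 𝒪 T] [Module.Free 𝒪 T] in
theorem prime_mem_maximalIdeal_of_algebra (hp𝒪 : (p : 𝒪) ∈ IsLocalRing.maximalIdeal 𝒪) :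
    (p : T) ∈ IsLocalRing.maximalIdeal T := by
  rw [← map_natCast (algebraMap 𝒪 T)]
  exact map_nonunit (algebraMap 𝒪 T) _ hp𝒪

/-- An element fixing all `p`-power torsion of `J₀(N)` is killed by the representation of a
datum. -/
theorem rho_eq_one_of_fixes_torsion (hF : TorsionFacts N p) (F : TorsionFrame N p)
    (hpS : p ∈ S) (hp𝒪 : (p : 𝒪) ∈ IsLocalRing.maximalIdeal 𝒪)
    (hNS : ∀ q : ℕ, q.Prime → q ∣ N → q ∈ S)
    (H : HeckeGaloisRepDatum N (↑S : Set ℕ) 𝒪 θ T) {σ : Γℚ}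
    (hσ : ∀ (n : ℕ) (x : JZero N), p ^ n • x = 0 → σ • x = x) : H.ρ.ρ σ = 1 :=
  rho_eq_one_of_fixes_torsion_point hF F hpS (prime_mem_maximalIdeal_of_algebra hp𝒪) hNS
    (HeckePoint.ofDatum H) hσ

end Datum

end Fermat.Agent.Datum
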