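import Fermat.Agent.Datum.Comparison
import Fermat.Prelude.Def_GaloisRep_Flat
import Mathlib.RingTheory.LocalRing.Quotient

/-!
# Consequences of the comparison: determinant, unipotent inertia, subquotients of torsion
-/

set_option autoImplicit false

noncomputable section

namespace Fermat.Agent.Datum

open Fermat.Agent.GaloisAdic
open CuspForm ModularCurve
open Matrix

local notation "ℚbar" => AlgebraicClosure ℚ
local notation "Γℚ" => AlgebraicClosure ℚ ≃ₐ[ℚ] AlgebraicClosure ℚ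

/-- Transport of an equivariant subquotient along an injection and a bijection. -/
theorem transport_subquotient {ι G M J W Z : Type*} [AddCommGroup M] [AddCommGroup J]
    [AddCommGroup W] [AddCommGroup Z] (e : M →+ J) (he : Function.Injective e) (qe : Z ≃+ W)
    (a : G → M → M) (b : G → J → J) (hab : ∀ g m, e (a g m) = b g (e m))
    (rW : G → W → W) (rZ : G → Z → Z) (hr : ∀ g z, qe (rZ g z) = rW g (qe z))
    (U : AddSubgroup (ι → M)) (π : U →+ W) (hπ : Function.Surjective π)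
    (hπσ : ∀ (g : G) (u : U), ∃ v : U,
      (∀ i, (v : ι → M) i = a g ((u : ι → M) i)) ∧ π v = rW g (π u)) :
    ∃ U' : AddSubgroup (ι → J), ∃ π' : U' →+ Z, Function.Surjective π' ∧
      (∀ (u : U') (i : ι), ∃ m, e m = (u : ι → J) i) ∧
      ∀ (g : G) (u : U'), ∃ w : U',
        (∀ i, (w : ι → J) i = b g ((u : ι → J) i)) ∧ π' w = rZ g (π' u) := by
  let E : (ι → M) →+ (ι → J) := e.compLeft ι
  have hE : Function.Injective E := fun x y h => funext fun i => he (congrFun h i)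
  let eU := U.equivMapOfInjective E hE
  refine ⟨U.map E, qe.symm.toAddMonoidHom.comp (π.comp eU.symm.toAddMonoidHom),
    qe.symm.surjective.comp (hπ.comp eU.symm.surjective), ?_, fun g u' => ?_⟩
  · rintro ⟨_, u, hu, rfl⟩ i
    exact ⟨u i, rfl⟩
  · obtain ⟨u, rfl⟩ := eU.surjective u'
    obtain ⟨v, hv, hπv⟩ := hπσ g u
    refine ⟨eU v, fun i => ?_, ?_⟩
    · show e ((v : ι → M) i) = b g (e ((u : ι → M) i))
      rw [hv i, hab]
    · show qe.symm (π (eU.symm (eU v))) = rZ g (qe.symm (π (eU.symm (eU u))))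
      rw [AddEquiv.symm_apply_apply, AddEquiv.symm_apply_apply, AddEquiv.symm_apply_eq, hπv, hr,
        AddEquiv.apply_symm_apply]

variable {p : ℕ} [Fact p.Prime] {N : ℕ} [NeZero N] {S : Finset ℕ}
  {T : Type} [CommRing T] [IsLocalRing T] [IsNoetherianRing T]

/-- The determinant of a datum is the cyclotomic character. -/
theorem detIsCyclotomic_point (hpS : p ∈ S) (hpT : (p : T) ∈ IsLocalRing.maximalIdeal T)
    (hNS : ∀ q : ℕ, q.Prime → q ∣ N → q ∈ S)
    (H : HeckePoint N S T) : H.ρ.DetIsCyclotomic p := by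
  refine ⟨hpT, fun n σ a ha => ?_⟩
  set J : Ideal T := Ideal.span {((p ^ n : ℕ) : T)}
  have key : ∀ m : ℕ, LinearMap.det (H.ρ.ρ σ) - (a : T) ∈
      IsLocalRing.maximalIdeal T ^ m ⊔ J := by
    intro m
    set I : Ideal T := IsLocalRing.maximalIdeal T ^ m ⊔ J
    rcases subsingleton_or_nontrivial (T ⧸ I) with hs | hs
    · rw [← Ideal.Quotient.eq_zero_iff_mem]
      exact Subsingleton.elim _ _
    obtain ⟨L₁, hL₁, h₁⟩ := exists_level_repMod H.ρ (I := I) (m := m) le_sup_left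
    obtain ⟨L₂, hL₂, h₂⟩ := exists_level_chiMod (p ^ n)
    obtain ⟨ℓ, hℓ, hℓS, A, hA, τ, hτ, ⟨k, hk⟩, -⟩ :=
      Density.exists_frobenius_pow σ (L₁ ⊔ L₂) S
    have hℓN : ¬ ℓ ∣ N := fun h => hℓS (hNS ℓ hℓ h)
    have hℓp : ℓ ≠ p := fun h => hℓS (h ▸ hpS)
    have hℓS' : ℓ ∉ (↑S : Set ℕ) := by simpa using hℓS
    have er : repMod H.ρ I σ = repMod H.ρ I τ ^ k :=
      (apply_eq_of_agree _ L₁ h₁ fun x hx => hk x (SetLike.le_def.mp le_sup_left hx)).trans
        (map_pow _ τ k)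
    have ec : chiMod (p ^ n) σ = chiMod (p ^ n) τ ^ k :=
      (apply_eq_of_agree _ L₂ h₂ fun x hx => hk x (SetLike.le_def.mp le_sup_right hx)).trans
        (map_pow _ τ k)
    rw [chiMod_eq_natCast _ σ ha, chiMod_frobenius (p ^ n) hA hτ
      (Nat.Coprime.pow_right n ((Nat.coprime_primes hℓ Fact.out).mpr hℓp))] at ec
    have hJI : J ≤ I := le_sup_right
    have h3 : (a : T ⧸ I) = (ℓ : T ⧸ I) ^ k := by
      have h4 : ((a : ℤ) - (ℓ : ℤ) ^ k : ℤ) ∈ Ideal.span {((p ^ n : ℕ) : ℤ)} := by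
        rw [Ideal.mem_span_singleton, ← ZMod.intCast_zmod_eq_zero_iff_dvd]
        push_cast
        rw [ec, sub_self]
      obtain ⟨c, hc⟩ := Ideal.mem_span_singleton'.mp h4
      have h5 : (((a : ℤ) - (ℓ : ℤ) ^ k : ℤ) : T ⧸ I) = 0 := by
        rw [← hc, Int.cast_mul, Int.cast_natCast, ← map_natCast (Ideal.Quotient.mk I),
          Ideal.Quotient.eq_zero_iff_mem.mpr (hJI (Ideal.mem_span_singleton_self _)), mul_zero]
      push_cast at h5
      exact sub_eq_zero.mp h5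
    rw [← Ideal.Quotient.mk_eq_mk_iff_sub_mem, map_natCast, h3,
      ← (repMod_frobenius H I hℓ hℓN hℓS' hA hτ).2, ← det_pow, ← er, repMod_apply,
      ← LinearMap.det_toMatrix (repBasis H.ρ), RingHom.map_det]
    rfl
  rw [← Ideal.Quotient.eq_zero_iff_mem]
  have hmem : Ideal.Quotient.mk J (LinearMap.det (H.ρ.ρ σ) - (a : T)) ∈
      (⨅ i : ℕ, IsLocalRing.maximalIdeal T ^ i • ⊤ : Submodule T (T ⧸ J)) := by
    rw [Submodule.mem_iInf]
    intro i
    obtain ⟨x, hx, y, hy, hxy⟩ := Submodule.mem_sup.mp (key i)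
    rw [← hxy, map_add, Ideal.Quotient.eq_zero_iff_mem.mpr hy, add_zero,
      show Ideal.Quotient.mk J x = x • (1 : T ⧸ J) from
        (mul_one (Ideal.Quotient.mk J x)).symm]
    exact Submodule.smul_mem_smul hx Submodule.mem_top
  rwa [Ideal.iInf_pow_smul_eq_bot_of_isLocalRing _ (IsLocalRing.maximalIdeal.isMaximal T).ne_top,
    Submodule.mem_bot] at hmem

/-- Unipotent action on all `p`-power torsion gives unipotent action through `ρ`. -/
theorem sq_sub_one_eq_zero_of_unipotent_point (hF : TorsionFacts N p) (F : TorsionFrame N p)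
    (hpS : p ∈ S) (hpT : (p : T) ∈ IsLocalRing.maximalIdeal T)
    (hNS : ∀ q : ℕ, q.Prime → q ∣ N → q ∈ S)
    (H : HeckePoint N S T) {σ : Γℚ}
    (hσ : ∀ (n : ℕ) (x : JZero N), p ^ n • x = 0 → σ • σ • x - 2 • σ • x + x = 0) :
    (H.ρ.ρ σ - 1) * (H.ρ.ρ σ - 1) = 0 := by
  refine LinearMap.ext fun v => eq_zero_of_forall_mem H fun m hm => ?_
  have := nontrivial_quotient_pow (T := T) hm
  have := isLocalRing_quotient (IsLocalRing.maximalIdeal T ^ m)
  obtain ⟨K, hK⟩ := exists_level_datum F hpT H m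
  have hrel : (levelAct F K σ - 1) * (levelAct F K σ - 1) = 0 := by
    refine Matrix.ext_of_mulVec_single fun i => (F.isTorsionIso K).injective ?_
    have he : ∀ w, F.e K (levelAct F K σ *ᵥ w) = σ • F.e K w := F.e_galMatrix σ K
    rw [Matrix.zero_mulVec, map_zero, ← mulVec_mulVec, sub_mulVec, one_mulVec, sub_mulVec,
      one_mulVec, mulVec_sub, map_sub, map_sub, map_sub, he, he]
    have := hσ K (F.e K (Pi.single i 1)) (((F.isTorsionIso K).mem_range_iff _).mp ⟨_, rfl⟩)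
    rw [two_nsmul] at this
    rw [← this]
    abel
  have h2 := (transferHyp_level hF hpS hNS H K le_rfl hK).sq_sub_one_eq_zero hrel
  rw [← repCoord_eq_zero_iff]
  simp only [Module.End.mul_apply, LinearMap.sub_apply, Module.End.one_apply, map_sub,
    repCoord_rho]
  have h3 := congrArg (· *ᵥ repCoord H.ρ (IsLocalRing.maximalIdeal T ^ m) v) h2
  simp only [← mulVec_mulVec, sub_mulVec, one_mulVec, zero_mulVec, mulVec_sub] at h3
  exact h3

/-- Unipotent on torsion and trivial cyclotomic character give characteristic polynomial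
`(X - 1)²`. -/
theorem charpoly_eq_of_unipotent_point (hF : TorsionFacts N p) (F : TorsionFrame N p)
    (hpS : p ∈ S) (hpT : (p : T) ∈ IsLocalRing.maximalIdeal T)
    (hNS : ∀ q : ℕ, q.Prime → q ∣ N → q ∈ S)
    (H : HeckePoint N S T) {σ : Γℚ}
    (hσ : ∀ (n : ℕ) (x : JZero N), p ^ n • x = 0 → σ • σ • x - 2 • σ • x + x = 0)
    (hμ : ∀ (n : ℕ) (μ : ℚbar), μ ^ p ^ n = 1 → σ μ = μ) :
    LinearMap.charpoly (H.ρ.ρ σ) = (Polynomial.X - 1) ^ 2 := by
  have hdet : LinearMap.det (H.ρ.ρ σ) = 1 := by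
    refine sub_eq_zero.mp ?_
    have hmem : LinearMap.det (H.ρ.ρ σ) - 1 ∈
        (⨅ i : ℕ, IsLocalRing.maximalIdeal T ^ i • ⊤ : Submodule T T) := by
      rw [Submodule.mem_iInf]
      intro i
      have h := (detIsCyclotomic_point hpS hpT hNS H).2 i σ 1
        (fun μ hi => by rw [pow_one]; exact hμ i μ hi)
      rw [Nat.cast_one, Nat.cast_pow] at h
      simp only [smul_eq_mul, Ideal.mul_top]
      exact (Ideal.span_le.mpr (Set.singleton_subset_iff.mpr
        (Ideal.pow_mem_pow hpT i))) h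
    rwa [Ideal.iInf_pow_smul_eq_bot_of_isLocalRing _
      (IsLocalRing.maximalIdeal.isMaximal T).ne_top, Submodule.mem_bot] at hmem
  set X := LinearMap.toMatrixAlgEquiv (repBasis H.ρ) (H.ρ.ρ σ) with hX
  have h1 : (X - 1) * (X - 1) = 0 := by
    rw [hX, ← map_one (LinearMap.toMatrixAlgEquiv (repBasis H.ρ)), ← map_sub, ← map_mul,
      sq_sub_one_eq_zero_of_unipotent_point hF F hpS hpT hNS H hσ, map_zero]
  have h2 : X * adjugate X = 1 := by
    rw [mul_adjugate, hX, show det (LinearMap.toMatrixAlgEquiv (repBasis H.ρ) (H.ρ.ρ σ)) =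
      LinearMap.det (H.ρ.ρ σ) from LinearMap.det_toMatrix (repBasis H.ρ) _, hdet, one_smul]
  have h3 : (trace X - 2) • X = 0 := by
    have h4 : trace X • X = X * X + 1 := by
      rw [← h2, ← mul_add, add_adjugate_fin_two, mul_smul_comm, mul_one]
    rw [sub_smul, h4, two_smul, ← h1]
    noncomm_ring
  have htr : trace X = 2 := by
    have h5 : (trace X - 2) • (1 : Matrix (Fin 2) (Fin 2) T) = 0 := by
      rw [← h2, ← smul_mul_assoc, h3, zero_mul]
    simpa [sub_eq_zero] using congrFun (congrFun h5 0) 0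
  rw [← LinearMap.charpoly_toMatrix (H.ρ.ρ σ) (repBasis H.ρ)]
  show X.charpoly = _
  rw [charpoly_fin_two, htr, show det X = 1 by
    rw [hX]
    exact (LinearMap.det_toMatrix (repBasis H.ρ) _).trans hdet]
  rw [map_ofNat, map_one]
  ring

set_option maxHeartbeats 1000000 in
/-- `ρ` modulo an open ideal is a Galois equivariant quotient of a stable subgroup of a finite
power of `J₀(N)[pᴷ]`. -/
theorem exists_torsion_subquotient_point (hF : TorsionFacts N p) (F : TorsionFrame N p)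
    (hpS : p ∈ S) (hpT : (p : T) ∈ IsLocalRing.maximalIdeal T)
    (hNS : ∀ q : ℕ, q.Prime → q ∣ N → q ∈ S)
    (H : HeckePoint N S T) (I : Ideal T) [Finite (T ⧸ I)] :
    ∃ (K : ℕ) (ι : Type) (_ : Finite ι) (U : AddSubgroup (ι → JZero N))
      (π : U →+ H.ρ.V ⧸ I • (⊤ : Submodule T H.ρ.V)),
      Function.Surjective π ∧ (∀ u : U, ∀ i, p ^ K • (u : ι → JZero N) i = 0) ∧
        ∀ (σ : Γℚ) (u : U), ∃ w : U,
          (∀ i, (w : ι → JZero N) i = σ • (u : ι → JZero N) i) ∧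
          π w = H.ρ.levelAction I σ (π u) := by
  rcases subsingleton_or_nontrivial (T ⧸ I) with hs | hs
  · refine ⟨0, PEmpty, inferInstance, ⊤, 0, fun x => ⟨0, ?_⟩, fun u i => i.elim, fun σ u =>
      ⟨⟨fun i => i.elim, trivial⟩, fun i => i.elim, ?_⟩⟩
    · obtain ⟨v, rfl⟩ := Submodule.Quotient.mk_surjective _ x
      rw [map_zero, eq_comm, Submodule.Quotient.mk_eq_zero,
        Ideal.Quotient.subsingleton_iff.mp hs, Submodule.top_smul]
      trivial
    · simp
  have := isLocalRing_quotient I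
  obtain ⟨m, hm⟩ : ∃ m, IsLocalRing.maximalIdeal T ^ m ≤ I := IsLocalRing.exists_maximalIdeal_pow_le_of_isArtinianRing_quotient I
  obtain ⟨K, hK⟩ := exists_level_datum F hpT H m
  have hH := transferHyp_level hF hpS hNS H K hm fun a ha => hm (hK a ha)
  let M := Fin F.H.r → ZMod (p ^ K)
  let ψ : Matrix (Fin F.H.r) (Fin F.H.r) (ZMod (p ^ K)) →+* AddMonoid.End M :=
    { toFun := fun X => (Matrix.mulVecLin X).toAddMonoidHom
      map_one' := AddMonoidHom.ext fun v => one_mulVec v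
      map_mul' := fun X Y => AddMonoidHom.ext fun v => (mulVec_mulVec v X Y).symm
      map_zero' := AddMonoidHom.ext fun v => zero_mulVec v
      map_add' := fun X Y => AddMonoidHom.ext fun v => add_mulVec X Y v }
  have hψ : Function.Injective ψ := fun X Y h =>
    Matrix.ext_of_mulVec_single fun i => DFunLike.congr_fun h (Pi.single i 1)
  let := Fintype.ofFinite (T ⧸ I)
  obtain ⟨U, π, hπ, hπσ⟩ := (hH.map ψ hψ).exists_subquotient
  -- transport to the torsion and to `V ⧸ I V`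
  let q : H.ρ.V ⧸ I • (⊤ : Submodule T H.ρ.V) →+ (Fin 2 → T ⧸ I) :=
    QuotientAddGroup.lift (I • (⊤ : Submodule T H.ρ.V)).toAddSubgroup (repCoord H.ρ I)
      fun v hv => (repCoord_eq_zero_iff H.ρ I v).mpr hv
  have hq : ∀ v : H.ρ.V, q (Submodule.Quotient.mk v) = repCoord H.ρ I v := fun v => rfl
  have hqb : Function.Bijective q := by
    refine ⟨(injective_iff_map_eq_zero q).mpr fun x hx => ?_, fun w => ?_⟩
    · obtain ⟨v, rfl⟩ := Submodule.Quotient.mk_surjective _ x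
      rw [Submodule.Quotient.mk_eq_zero, ← repCoord_eq_zero_iff, ← hq, hx]
    · obtain ⟨v, rfl⟩ := repCoord_surjective H.ρ I w
      exact ⟨_, hq v⟩
  obtain ⟨U', π', h1, h2, h3⟩ := transport_subquotient (F.e K) (F.isTorsionIso K).injective
    (AddEquiv.ofBijective q hqb) (fun σ m => levelAct F K σ *ᵥ m) (fun σ x => σ • x)
    (fun σ m => F.e_galMatrix σ K m) (fun σ w => repMod H.ρ I σ *ᵥ w)
    (fun σ z => H.ρ.levelAction I σ z)
    (fun σ z => by
      obtain ⟨v, rfl⟩ := Submodule.Quotient.mk_surjective _ z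
      exact repCoord_rho H.ρ I σ v)
    U π hπ hπσ
  refine ⟨K, (Fin 2 → T ⧸ I) × M, inferInstance, U', π', h1, fun u i => ?_, h3⟩
  obtain ⟨m, hm'⟩ := h2 u i
  exact ((F.isTorsionIso K).mem_range_iff _).mp ⟨m, hm'⟩

section Datum

variable {𝒪 : Type} [CommRing 𝒪] [IsDomain 𝒪] [IsDiscreteValuationRing 𝒪]
  [IsAdicComplete (IsLocalRing.maximalIdeal 𝒪) 𝒪]
  {θ : heckeAlgebra N 2 (↑S : Set ℕ) →+* IsLocalRing.ResidueField 𝒪}
  [IsAdicComplete (IsLocalRing.maximalIdeal T) T] [Algebra 𝒪 T] [IsLocalHom (algebraMap 𝒪 T)]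
  [Module.Finite 𝒪 T] [Module.Free 𝒪 T]

/-- The determinant of a datum is the cyclotomic character. -/
theorem detIsCyclotomic (hpS : p ∈ S) (hp𝒪 : (p : 𝒪) ∈ IsLocalRing.maximalIdeal 𝒪)
    (hNS : ∀ q : ℕ, q.Prime → q ∣ N → q ∈ S)
    (H : HeckeGaloisRepDatum N (↑S : Set ℕ) 𝒪 θ T) : H.ρ.DetIsCyclotomic p :=
  detIsCyclotomic_point hpS (prime_mem_maximalIdeal_of_algebra hp𝒪) hNS (HeckePoint.ofDatum H)

/-- Unipotence for a datum. -/
theorem charpoly_eq_of_unipotent (hF : TorsionFacts N p) (F : TorsionFrame N p)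
    (hpS : p ∈ S) (hp𝒪 : (p : 𝒪) ∈ IsLocalRing.maximalIdeal 𝒪)
    (hNS : ∀ q : ℕ, q.Prime → q ∣ N → q ∈ S)
    (H : HeckeGaloisRepDatum N (↑S : Set ℕ) 𝒪 θ T) {σ : Γℚ}
    (hσ : ∀ (n : ℕ) (x : JZero N), p ^ n • x = 0 → σ • σ • x - 2 • σ • x + x = 0)
    (hμ : ∀ (n : ℕ) (μ : ℚbar), μ ^ p ^ n = 1 → σ μ = μ) :
    LinearMap.charpoly (H.ρ.ρ σ) = (Polynomial.X - 1) ^ 2 :=
  charpoly_eq_of_unipotent_point hF F hpS (prime_mem_maximalIdeal_of_algebra hp𝒪) hNS
    (HeckePoint.ofDatum H) hσ hμ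

/-- Subquotients for a datum. -/
theorem exists_torsion_subquotient (hF : TorsionFacts N p) (F : TorsionFrame N p)
    (hpS : p ∈ S) (hp𝒪 : (p : 𝒪) ∈ IsLocalRing.maximalIdeal 𝒪)
    (hNS : ∀ q : ℕ, q.Prime → q ∣ N → q ∈ S)
    (H : HeckeGaloisRepDatum N (↑S : Set ℕ) 𝒪 θ T) (I : Ideal T) [Finite (T ⧸ I)] :
    ∃ (K : ℕ) (ι : Type) (_ : Finite ι) (U : AddSubgroup (ι → JZero N))
      (π : U →+ H.ρ.V ⧸ I • (⊤ : Submodule T H.ρ.V)),
      Function.Surjective π ∧ (∀ u : U, ∀ i, p ^ K • (u : ι → JZero N) i = 0) ∧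
        ∀ (σ : Γℚ) (u : U), ∃ w : U,
          (∀ i, (w : ι → JZero N) i = σ • (u : ι → JZero N) i) ∧
          π w = H.ρ.levelAction I σ (π u) :=
  exists_torsion_subquotient_point hF F hpS (prime_mem_maximalIdeal_of_algebra hp𝒪) hNS
    (HeckePoint.ofDatum H) I

end Datum

end Fermat.Agent.Datum
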