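import Mathlib.LinearAlgebra.Matrix.Adjugate
import Mathlib.LinearAlgebra.Matrix.Trace
import Mathlib.LinearAlgebra.Span.Basic
import Mathlib.RingTheory.LocalRing.ResidueField.Basic
import Mathlib.GroupTheory.Finiteness
import Mathlib.Tactic.NoncommRing

/-!
# Transfer of relations from a quadratic Galois action to a two dimensional representation

Abstract form of the comparison between a representation `r : G →* M₂(B)` and a ring `R`
(in the applications: endomorphisms of a torsion group of a Jacobian) on which `G` acts with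
`g² - t(g) g + d(g) = 0`, the scalars `t`, `d` mapping to trace and determinant of `r`.
If `r` spans `M₂(B)`, every linear relation between the actions of the group elements in `R`
holds for `r`.
-/

set_option autoImplicit false

namespace Fermat.Agent.Datum

open Matrix

section Fin2

variable {B : Type*} [CommRing B]

theorem adjugate_add_fin_two (X Y : Matrix (Fin 2) (Fin 2) B) :
    adjugate (X + Y) = adjugate X + adjugate Y := by
  ext i j
  fin_cases i <;> fin_cases j <;> simp [adjugate_fin_two]
  all_goals ring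

theorem adjugate_neg_fin_two (X : Matrix (Fin 2) (Fin 2) B) :
    adjugate (-X) = -adjugate X := by
  ext i j
  fin_cases i <;> fin_cases j <;> simp [adjugate_fin_two]

theorem adjugate_smul_fin_two (c : B) (X : Matrix (Fin 2) (Fin 2) B) :
    adjugate (c • X) = c • adjugate X := by
  ext i j
  fin_cases i <;> fin_cases j <;> simp [adjugate_fin_two]

theorem add_adjugate_fin_two (X : Matrix (Fin 2) (Fin 2) B) :
    X + adjugate X = trace X • (1 : Matrix (Fin 2) (Fin 2) B) := by
  ext i j
  fin_cases i <;> fin_cases j <;> simp [adjugate_fin_two, trace_fin_two] <;> ring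

theorem det_add_fin_two (X Y : Matrix (Fin 2) (Fin 2) B) :
    det (X + Y) = det X + det Y + trace (X * adjugate Y) := by
  simp [det_fin_two, adjugate_fin_two, trace_fin_two, mul_apply, Fin.sum_univ_two]
  ring

theorem trace_mul_adjugate_self_fin_two (X : Matrix (Fin 2) (Fin 2) B) :
    trace (X * adjugate X) = 2 * det X := by
  rw [mul_adjugate, trace_smul, trace_one]
  simp [mul_comm]

theorem det_neg_fin_two (X : Matrix (Fin 2) (Fin 2) B) : det (-X) = det X := by
  simp [det_fin_two]

end Fin2

section Field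

variable {k : Type*} [Field k]

/-- An additive set of `2 × 2` matrices all singular spans a space of singular matrices. -/
theorem det_eq_zero_of_mem_span (L : AddSubgroup (Matrix (Fin 2) (Fin 2) k))
    (hL : ∀ X ∈ L, det X = 0) {X : Matrix (Fin 2) (Fin 2) k}
    (hX : X ∈ Submodule.span k (L : Set (Matrix (Fin 2) (Fin 2) k))) : det X = 0 := by
  have h1 : ∀ Y ∈ L, ∀ Z ∈ L, trace (Y * adjugate Z) = 0 := by
    intro Y hY Z hZ
    have h := det_add_fin_two Y Z
    rw [hL _ (L.add_mem hY hZ), hL Y hY, hL Z hZ] at h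
    simpa using h.symm
  have h2 : ∀ Y ∈ Submodule.span k (L : Set (Matrix (Fin 2) (Fin 2) k)),
      ∀ Z ∈ L, trace (Y * adjugate Z) = 0 := by
    intro Y hY Z hZ
    induction hY using Submodule.span_induction with
    | mem y hy => exact h1 y hy Z hZ
    | zero => simp
    | add y z _ _ iy iz => rw [add_mul, trace_add, iy, iz, add_zero]
    | smul c y _ iy => rw [smul_mul_assoc, trace_smul, iy, smul_zero]
  have h3 : ∀ Y ∈ Submodule.span k (L : Set (Matrix (Fin 2) (Fin 2) k)),
      ∀ Z ∈ Submodule.span k (L : Set (Matrix (Fin 2) (Fin 2) k)),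
        trace (Y * adjugate Z) = 0 := by
    intro Y hY Z hZ
    induction hZ using Submodule.span_induction with
    | mem z hz => exact h2 Y hY z hz
    | zero => rw [show (0 : Matrix (Fin 2) (Fin 2) k) = (0 : k) • 0 from (zero_smul _ _).symm,
        adjugate_smul_fin_two, zero_smul, mul_zero, trace_zero]
    | add y z _ _ iy iz => rw [adjugate_add_fin_two, mul_add, trace_add, iy, iz, add_zero]
    | smul c y _ iy => rw [adjugate_smul_fin_two, mul_smul_comm, trace_smul, iy, smul_zero]
  induction hX using Submodule.span_induction with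
  | mem x hx => exact hL x hx
  | zero => simp
  | add x y hxm hym ix iy => rw [det_add_fin_two, ix, iy, h3 x hxm y hym, add_zero, add_zero]
  | smul c x _ ix => rw [det_smul, ix, mul_zero]

/-- An additive set of matrices spanning `M₂(k)` contains two elements with invertible
commutator. -/
theorem exists_det_commutator_ne_zero (L : AddSubgroup (Matrix (Fin 2) (Fin 2) k))
    (hL : Submodule.span k (L : Set (Matrix (Fin 2) (Fin 2) k)) = ⊤) :
    ∃ U ∈ L, ∃ V ∈ L, det (U * V - V * U) ≠ 0 := by
  by_contra hcon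
  push Not at hcon
  have h1 : ∀ U, ∀ V ∈ L, det (U * V - V * U) = 0 := by
    intro U V hV
    let f : Matrix (Fin 2) (Fin 2) k →ₗ[k] Matrix (Fin 2) (Fin 2) k :=
      LinearMap.mulRight k V - LinearMap.mulLeft k V
    have hf : ∀ X, f X = X * V - V * X := fun X => rfl
    rw [← hf]
    refine det_eq_zero_of_mem_span (L.map f.toAddMonoidHom) ?_ ?_
    · rintro _ ⟨X, hX, rfl⟩
      exact hcon X hX V hV
    · have hmem : f U ∈ Submodule.map f (Submodule.span k (L : Set (Matrix (Fin 2) (Fin 2) k))) :=
        ⟨U, by rw [hL]; trivial, rfl⟩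
      rw [Submodule.map_span] at hmem
      exact hmem
  have h2 : ∀ U V : Matrix (Fin 2) (Fin 2) k, det (U * V - V * U) = 0 := by
    intro U V
    let f : Matrix (Fin 2) (Fin 2) k →ₗ[k] Matrix (Fin 2) (Fin 2) k :=
      LinearMap.mulLeft k U - LinearMap.mulRight k U
    have hf : ∀ X, f X = U * X - X * U := fun X => rfl
    rw [← hf]
    refine det_eq_zero_of_mem_span (L.map f.toAddMonoidHom) ?_ ?_
    · rintro _ ⟨X, hX, rfl⟩
      exact h1 U X hX
    · have hmem : f V ∈ Submodule.map f (Submodule.span k (L : Set (Matrix (Fin 2) (Fin 2) k))) :=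
        ⟨V, by rw [hL]; trivial, rfl⟩
      rw [Submodule.map_span] at hmem
      exact hmem
  have h := h2 !![0, 1; 0, 0] !![0, 0; 1, 0]
  simp [det_fin_two] at h

end Field

section Transfer

variable {G : Type*} [Group G] {h : Type*} [CommRing h] {R : Type*} [Ring R]
  {B : Type*} [CommRing B]

/-- The additive group of triples (element, conjugate element, matrix) spanned by the group
elements with Hecke coefficients. -/
def transferTriples (α : h →+* R) (act : G →* R) (d : G →* h) (φ : h →+* B)
    (r : G →* Matrix (Fin 2) (Fin 2) B) : AddSubgroup ((R × R) × Matrix (Fin 2) (Fin 2) B) :=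
  AddSubgroup.closure (Set.range fun ag : h × G =>
    ((α ag.1 * act ag.2, α (ag.1 * d ag.2) * act ag.2⁻¹), φ ag.1 • r ag.2))

/-- The hypotheses of the transfer. -/
structure TransferHyp (α : h →+* R) (act : G →* R) (d : G →* h) (φ : h →+* B)
    (r : G →* Matrix (Fin 2) (Fin 2) B) : Prop where
  comm : ∀ a g, Commute (α a) (act g)
  ker_le : ∀ a, α a = 0 → φ a = 0
  det_eq : ∀ g, det (r g) = φ (d g)
  rel : ∀ g, ∃ c : h, act g * act g - α c * act g + α (d g) = 0 ∧ trace (r g) = φ c
  span_eq : Submodule.span B (Set.range r) = ⊤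

variable {α : h →+* R} {act : G →* R} {d : G →* h} {φ : h →+* B}
  {r : G →* Matrix (Fin 2) (Fin 2) B}

namespace TransferHyp

variable (H : TransferHyp α act d φ r)
include H

omit H in
theorem gen_mem (a : h) (g : G) :
    ((α a * act g, α (a * d g) * act g⁻¹), φ a • r g) ∈ transferTriples α act d φ r :=
  AddSubgroup.subset_closure ⟨(a, g), rfl⟩

theorem smul_inv_eq_adjugate (g : G) : φ (d g) • r g⁻¹ = adjugate (r g) := by
  have h1 : adjugate (r g) * r g = φ (d g) • (1 : Matrix (Fin 2) (Fin 2) B) := by
    rw [adjugate_mul, H.det_eq]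
  calc φ (d g) • r g⁻¹ = (adjugate (r g) * r g) * r g⁻¹ := by
        rw [h1, smul_mul_assoc, one_mul]
    _ = adjugate (r g) := by rw [mul_assoc, ← map_mul, mul_inv_cancel, map_one, mul_one]

theorem exists_sum {z : (R × R) × Matrix (Fin 2) (Fin 2) B} (hz : z ∈ transferTriples α act d φ r) :
    ∃ c : h, z.1.1 + z.1.2 = α c ∧ trace z.2 = φ c := by
  induction hz using AddSubgroup.closure_induction with
  | mem z hz =>
    obtain ⟨⟨a, g⟩, rfl⟩ := hz
    obtain ⟨c, hc, htr⟩ := H.rel g
    refine ⟨a * c, ?_, by simp [trace_smul, htr]⟩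
    have hg : act g * act g⁻¹ = 1 := by rw [← map_mul, mul_inv_cancel, map_one]
    have h2 : act g + α (d g) * act g⁻¹ - α c = 0 := by
      calc act g + α (d g) * act g⁻¹ - α c
          = (act g * act g - α c * act g + α (d g)) * act g⁻¹ := by
            rw [add_mul, sub_mul, mul_assoc, hg, mul_assoc, hg, mul_one, mul_one]; abel
        _ = 0 := by rw [hc, zero_mul]
    show α a * act g + α (a * d g) * act g⁻¹ = α (a * c)
    rw [map_mul, map_mul, mul_assoc, ← mul_add, sub_eq_zero.mp h2]
  | zero => exact ⟨0, by simp⟩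
  | add x y _ _ hx hy =>
    obtain ⟨c, h1, h2⟩ := hx
    obtain ⟨c', h3, h4⟩ := hy
    refine ⟨c + c', ?_, by simp [h2, h4]⟩
    rw [map_add, ← h1, ← h3]
    simp only [Prod.fst_add, Prod.snd_add]
    abel
  | neg x _ hx =>
    obtain ⟨c, h1, h2⟩ := hx
    refine ⟨-c, ?_, by simp [h2]⟩
    rw [map_neg, ← h1]
    simp only [Prod.fst_neg, Prod.snd_neg]
    abel

theorem gen_mul_mem (a b : h) (g g' : G) :
    ((α a * act g * (α b * act g'),
      (α (b * d g') * act g'⁻¹) * (α (a * d g) * act g⁻¹)), (φ a • r g) * (φ b • r g')) ∈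
      transferTriples α act d φ r := by
  convert gen_mem (α := α) (act := act) (d := d) (φ := φ) (r := r) (a * b) (g * g') using 2
  · rw [Prod.mk.injEq]
    constructor
    · rw [map_mul, map_mul, ← mul_assoc, mul_assoc (α a), ← (H.comm b g).eq, ← mul_assoc,
        mul_assoc]
    · rw [← mul_assoc, mul_assoc (α (b * d g')), ← (H.comm (a * d g) g'⁻¹).eq, ← mul_assoc,
        mul_assoc, ← map_mul, ← map_mul, mul_inv_rev,
        show b * d g' * (a * d g) = a * b * d (g * g') by rw [map_mul]; ring]
  · rw [smul_mul_assoc, mul_smul_comm, smul_smul, map_mul, map_mul]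

theorem mul_mem {z w : (R × R) × Matrix (Fin 2) (Fin 2) B}
    (hz : z ∈ transferTriples α act d φ r) (hw : w ∈ transferTriples α act d φ r) :
    ((z.1.1 * w.1.1, w.1.2 * z.1.2), z.2 * w.2) ∈ transferTriples α act d φ r := by
  induction hz using AddSubgroup.closure_induction with
  | mem z hz =>
    obtain ⟨⟨a, g⟩, rfl⟩ := hz
    induction hw using AddSubgroup.closure_induction with
    | mem w hw =>
      obtain ⟨⟨b, g'⟩, rfl⟩ := hw
      exact H.gen_mul_mem a b g g'
    | zero =>
      convert (transferTriples α act d φ r).zero_mem using 1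
      simp
    | add x y _ _ hx hy =>
      convert (transferTriples α act d φ r).add_mem hx hy using 1
      simp [mul_add, add_mul]
    | neg x _ hx =>
      convert (transferTriples α act d φ r).neg_mem hx using 1
      simp
  | zero =>
    convert (transferTriples α act d φ r).zero_mem using 1
    simp
  | add x y _ _ hx hy =>
    convert (transferTriples α act d φ r).add_mem hx hy using 1
    simp [mul_add, add_mul]
  | neg x _ hx =>
    convert (transferTriples α act d φ r).neg_mem hx using 1
    simp

theorem swap_mem {z : (R × R) × Matrix (Fin 2) (Fin 2) B}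
    (hz : z ∈ transferTriples α act d φ r) :
    ((z.1.2, z.1.1), adjugate z.2) ∈ transferTriples α act d φ r := by
  induction hz using AddSubgroup.closure_induction with
  | mem z hz =>
    obtain ⟨⟨a, g⟩, rfl⟩ := hz
    convert gen_mem (α := α) (act := act) (d := d) (φ := φ) (r := r) (a * d g) g⁻¹ using 2
    · rw [inv_inv, mul_assoc a, ← map_mul d, mul_inv_cancel, map_one, mul_one]
    · rw [adjugate_smul_fin_two, ← H.smul_inv_eq_adjugate, smul_smul, map_mul]
  | zero =>
    convert (transferTriples α act d φ r).zero_mem using 1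
    simp [Prod.ext_iff, adjugate_zero]
  | add x y _ _ hx hy =>
    convert (transferTriples α act d φ r).add_mem hx hy using 1
    simp [adjugate_add_fin_two]
  | neg x _ hx =>
    convert (transferTriples α act d φ r).neg_mem hx using 1
    simp [adjugate_neg_fin_two]

theorem exists_norm {z : (R × R) × Matrix (Fin 2) (Fin 2) B}
    (hz : z ∈ transferTriples α act d φ r) :
    ∃ c : h, z.1.1 * z.1.2 = α c ∧ det z.2 = φ c := by
  induction hz using AddSubgroup.closure_induction with
  | mem z hz =>
    obtain ⟨⟨a, g⟩, rfl⟩ := hz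
    refine ⟨a * (a * d g), ?_, ?_⟩
    · show α a * act g * (α (a * d g) * act g⁻¹) = α (a * (a * d g))
      rw [mul_assoc, ← mul_assoc (act g), ← (H.comm _ g).eq, mul_assoc, ← map_mul act,
        mul_inv_cancel, map_one, mul_one, ← map_mul]
    · simp only [det_smul, H.det_eq, Fintype.card_fin, map_mul]
      ring
  | zero => exact ⟨0, by simp⟩
  | add x y hxm hym hx hy =>
    obtain ⟨c, h1, h2⟩ := hx
    obtain ⟨c', h3, h4⟩ := hy
    obtain ⟨e, he1, he2⟩ := H.exists_sum (H.mul_mem hxm (H.swap_mem hym))
    refine ⟨c + c' + e, ?_, ?_⟩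
    · rw [map_add, map_add, ← h1, ← h3, ← he1]
      simp only [Prod.fst_add, Prod.snd_add, mul_add, add_mul]
      abel
    · rw [Prod.snd_add, det_add_fin_two, h2, h4, he2, map_add, map_add]
  | neg x _ hx =>
    obtain ⟨c, h1, h2⟩ := hx
    exact ⟨c, by simp [h1], by rw [Prod.snd_neg, det_neg_fin_two, h2]⟩

theorem trace_eq_zero_of_fst_eq_zero [IsLocalRing B]
    {z : (R × R) × Matrix (Fin 2) (Fin 2) B}
    (hz : z ∈ transferTriples α act d φ r) (h0 : z.1.1 = 0) : trace z.2 = 0 := by
  obtain ⟨c, hc, htr⟩ := H.exists_sum hz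
  rw [h0, zero_add] at hc
  -- `α c` times any element is a scalar
  have h1 : ∀ w ∈ transferTriples α act d φ r, ∃ c' : h, w.1.1 * α c = α c' := by
    intro w hw
    obtain ⟨c', hc', -⟩ := H.exists_sum (H.mul_mem hz (H.swap_mem hw))
    refine ⟨c', ?_⟩
    simpa [h0, hc] using hc'
  have hcc : ∀ (a : h) {v : (R × R) × Matrix (Fin 2) (Fin 2) B},
      v ∈ transferTriples α act d φ r → Commute (α a) v.1.1 := by
    intro a v hv
    induction hv using AddSubgroup.closure_induction with
    | mem v hv =>
      obtain ⟨⟨b, g⟩, rfl⟩ := hv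
      refine Commute.mul_right ?_ (H.comm a g)
      exact (Commute.all a b).map α
    | zero => exact Commute.zero_right _
    | add x y _ _ hx hy => exact hx.add_right hy
    | neg x _ hx => exact hx.neg_right
  -- residually there is an invertible commutator
  let f : B →+* IsLocalRing.ResidueField B := IsLocalRing.residue B
  let F : (R × R) × Matrix (Fin 2) (Fin 2) B →+
      Matrix (Fin 2) (Fin 2) (IsLocalRing.ResidueField B) :=
    f.mapMatrix.toAddMonoidHom.comp (AddMonoidHom.snd _ _)
  have hspan : Submodule.span (IsLocalRing.ResidueField B)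
      ((transferTriples α act d φ r).map F : Set (Matrix (Fin 2) (Fin 2)
        (IsLocalRing.ResidueField B))) = ⊤ := by
    rw [eq_top_iff]
    rintro Y -
    obtain ⟨Y, rfl⟩ : ∃ Y', f.mapMatrix Y' = Y := by
      refine ⟨fun i j => Function.surjInv (IsLocalRing.residue_surjective (R := B)) (Y i j), ?_⟩
      ext i j
      exact Function.surjInv_eq (IsLocalRing.residue_surjective (R := B)) (Y i j)
    have hY : Y ∈ Submodule.span B (Set.range r) := by rw [H.span_eq]; trivial
    induction hY using Submodule.span_induction with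
    | mem y hy =>
      obtain ⟨g, rfl⟩ := hy
      exact Submodule.subset_span ⟨_, gen_mem 1 g, by simp [F]⟩
    | zero => simp
    | add y y' _ _ iy iy' => rw [map_add]; exact Submodule.add_mem _ iy iy'
    | smul b y _ iy =>
      have : f.mapMatrix (b • y) = f b • f.mapMatrix y := by ext i j; simp
      rw [this]
      exact Submodule.smul_mem _ _ iy
  obtain ⟨U, ⟨u, hu, rfl⟩, V, ⟨v, hv, rfl⟩, hdet⟩ := exists_det_commutator_ne_zero _ hspan
  set w : (R × R) × Matrix (Fin 2) (Fin 2) B :=
    ((u.1.1 * v.1.1, v.1.2 * u.1.2), u.2 * v.2) - ((v.1.1 * u.1.1, u.1.2 * v.1.2), v.2 * u.2)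
    with hw_def
  have hw : w ∈ transferTriples α act d φ r :=
    AddSubgroup.sub_mem _ (H.mul_mem hu hv) (H.mul_mem hv hu)
  have hw0 : w.1.1 * α c = 0 := by
    obtain ⟨c', hc'⟩ := h1 u hu
    have e1 : u.1.1 * v.1.1 * α c = α c' * v.1.1 := by
      rw [mul_assoc, ← (hcc c hv).eq, ← mul_assoc, hc']
    have e2 : v.1.1 * u.1.1 * α c = α c' * v.1.1 := by
      rw [mul_assoc, hc', (hcc c' hv).eq]
    simp only [hw_def, Prod.fst_sub, sub_mul, e1, e2, sub_self]
  obtain ⟨n, hn, hdn⟩ := H.exists_norm (H.swap_mem hw)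
  have hdet' : det (adjugate w.2) = det w.2 := by rw [det_adjugate]; simp
  have hcn : α (n * c) = 0 := by
    rw [map_mul, ← hn]
    show w.1.2 * w.1.1 * α c = 0
    rw [mul_assoc, hw0, mul_zero]
  have hu' : IsUnit (det w.2) := by
    refine IsLocalRing.residue_ne_zero_iff_isUnit _ |>.mp ?_
    rw [RingHom.map_det]
    simpa [hw_def, F, f, map_sub, map_mul] using hdet
  have h3 := H.ker_le _ hcn
  rw [map_mul, ← hdn, hdet'] at h3
  rw [htr]
  exact (hu'.mul_right_eq_zero).mp h3

/-- A linear relation in `R` holds for `r`. -/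
theorem snd_eq_zero_of_fst_eq_zero [IsLocalRing B]
    {z : (R × R) × Matrix (Fin 2) (Fin 2) B}
    (hz : z ∈ transferTriples α act d φ r) (h0 : z.1.1 = 0) : z.2 = 0 := by
  have h1 : ∀ Y : Matrix (Fin 2) (Fin 2) B, trace (z.2 * Y) = 0 := by
    intro Y
    have hY : Y ∈ Submodule.span B (Set.range r) := by rw [H.span_eq]; trivial
    induction hY using Submodule.span_induction with
    | mem y hy =>
      obtain ⟨g, rfl⟩ := hy
      have hm := H.mul_mem hz (gen_mem (α := α) (act := act) (d := d) (φ := φ) (r := r) 1 g)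
      simpa using H.trace_eq_zero_of_fst_eq_zero hm (by simp [h0])
    | zero => simp
    | add y y' _ _ iy iy' => rw [mul_add, trace_add, iy, iy', add_zero]
    | smul b y _ iy => rw [mul_smul_comm, trace_smul, iy, smul_zero]
  ext i j
  simpa using (trace_mul_single z.2 j i 1).symm.trans (h1 _)

/-- An element acting trivially on `R` acts trivially through `r`. -/
theorem r_eq_one [IsLocalRing B] {g : G} (hg : act g = 1) : r g = 1 := by
  have hm := (transferTriples α act d φ r).sub_mem
    (gen_mem (α := α) (act := act) (d := d) (φ := φ) (r := r) 1 g)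
    (gen_mem (α := α) (act := act) (d := d) (φ := φ) (r := r) 1 1)
  have h2 := H.snd_eq_zero_of_fst_eq_zero hm (by simp [hg])
  simpa [sub_eq_zero] using h2

/-- A quadratic relation with scalar coefficients in `R` holds for `r`. -/
theorem quadratic_eq_zero [IsLocalRing B] {g : G} {a b : h}
    (hg : act g * act g + α a * act g + α b = 0) :
    r g * r g + φ a • r g + φ b • (1 : Matrix (Fin 2) (Fin 2) B) = 0 := by
  have hm := (transferTriples α act d φ r).add_mem ((transferTriples α act d φ r).add_mem
    (gen_mem (α := α) (act := act) (d := d) (φ := φ) (r := r) 1 (g * g))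
    (gen_mem (α := α) (act := act) (d := d) (φ := φ) (r := r) a g))
    (gen_mem (α := α) (act := act) (d := d) (φ := φ) (r := r) b 1)
  have h2 := H.snd_eq_zero_of_fst_eq_zero hm (by simpa using hg)
  simpa using h2

/-- Unipotence in `R` implies unipotence through `r`. -/
theorem sq_sub_one_eq_zero [IsLocalRing B] {g : G} (hg : (act g - 1) * (act g - 1) = 0) :
    (r g - 1) * (r g - 1) = 0 := by
  have hg' : act g * act g + α (-2) * act g + α 1 = 0 := by
    rw [map_neg, map_ofNat, map_one, ← hg]
    noncomm_ring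
  have h2 := H.quadratic_eq_zero hg'
  rw [map_neg, map_ofNat, map_one, one_smul, neg_smul, two_smul] at h2
  rw [← h2]
  noncomm_ring

end TransferHyp

end Transfer

section Subquotient

variable {G : Type*} [Group G] {h : Type*} [CommRing h] {M : Type*} [AddCommGroup M]
  {B : Type*} [CommRing B]
  {α : h →+* AddMonoid.End M} {act : G →* AddMonoid.End M} {d : G →* h} {φ : h →+* B}
  {r : G →* Matrix (Fin 2) (Fin 2) B}

/-- When `R` is the endomorphism ring of `M`, the representation `r` is an equivariant quotient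
of a stable subgroup of a finite power of `M`. -/
theorem TransferHyp.exists_subquotient [IsLocalRing B] [Fintype B]
    (H : TransferHyp α act d φ r) :
    ∃ U : AddSubgroup ((Fin 2 → B) × M → M), ∃ π : U →+ (Fin 2 → B), Function.Surjective π ∧
      ∀ (g : G) (u : U), ∃ v : U, (∀ i, (v : (Fin 2 → B) × M → M) i = act g (u.1 i)) ∧
        π v = r g *ᵥ π u := by
  classical
  let P := transferTriples α act d φ r
  let Ψ : ((Fin 2 → B) → P) →+ ((Fin 2 → B) × M → M) :=
    { toFun := fun f wm => (f wm.1).1.1.1 wm.2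
      map_zero' := rfl
      map_add' := fun f f' => rfl }
  let Φ : ((Fin 2 → B) → P) →+ (Fin 2 → B) :=
    { toFun := fun f => ∑ w, (f w).1.2 *ᵥ w
      map_zero' := by simp
      map_add' := fun f f' => by simp [add_mulVec, Finset.sum_add_distrib] }
  have hker : Ψ.rangeRestrict.ker ≤ Φ.ker := by
    intro f hf
    have hf' : Ψ f = 0 := congrArg Subtype.val hf
    show ∑ w, (f w).1.2 *ᵥ w = 0
    refine Finset.sum_eq_zero fun w _ => ?_
    rw [H.snd_eq_zero_of_fst_eq_zero (f w).2 (DFunLike.ext _ _ fun m => congrFun hf' (w, m)),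
      zero_mulVec]
  let π := (Ψ.rangeRestrict).liftOfSurjective Ψ.rangeRestrict_surjective ⟨Φ, hker⟩
  have hπ : ∀ f, π (Ψ.rangeRestrict f) = Φ f := fun f =>
    AddMonoidHom.liftOfRightInverse_comp_apply _ _ _ ⟨Φ, hker⟩ f
  refine ⟨Ψ.range, π, fun w => ?_, fun g u => ?_⟩
  · refine ⟨Ψ.rangeRestrict (Pi.single w ⟨_, gen_mem 1 1⟩), ?_⟩
    rw [hπ]
    show ∑ x, ((Pi.single w ⟨_, gen_mem 1 1⟩ : (Fin 2 → B) → P) x).1.2 *ᵥ x = w
    rw [Finset.sum_eq_single w]
    · simp
    · intro b _ hb
      simp [Pi.single_eq_of_ne hb]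
    · simp
  · obtain ⟨f, hf⟩ := Ψ.rangeRestrict_surjective u
    refine ⟨Ψ.rangeRestrict fun w => ⟨_, H.mul_mem (gen_mem 1 g) (f w).2⟩, fun i => ?_, ?_⟩
    · rw [← hf]
      show (α 1 * act g * (f i.1).1.1.1) i.2 = act g ((f i.1).1.1.1 i.2)
      rw [map_one, one_mul]
      rfl
    · rw [← hf, hπ, hπ]
      show ∑ w, ((φ 1 • r g) * (f w).1.2) *ᵥ w = r g *ᵥ ∑ w, (f w).1.2 *ᵥ w
      rw [mulVec_sum]
      simp [mulVec_mulVec]

end Subquotient

end Fermat.Agent.Datum
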