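import Mathlib.LinearAlgebra.Matrix.Charpoly.Coeff
import Fermat.Agent.Datum.Transfer

/-!
# Powers of an element satisfying a quadratic relation
-/

set_option autoImplicit false

namespace Fermat.Agent.Datum

open Matrix

variable {h : Type*} [CommRing h]

/-- `xᵏ + yᵏ` as a polynomial in `t = x + y` and `e = x y`. -/
def powerTrace (t e : h) : ℕ → h
  | 0 => 2
  | 1 => t
  | (k + 2) => t * powerTrace t e (k + 1) - e * powerTrace t e k

theorem map_powerTrace {h' : Type*} [CommRing h'] (f : h →+* h') (t e : h) :
    ∀ k, f (powerTrace t e k) = powerTrace (f t) (f e) k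
  | 0 => by simp [powerTrace, map_ofNat]
  | 1 => rfl
  | (k + 2) => by
    rw [powerTrace, powerTrace, map_sub, map_mul, map_mul, map_powerTrace f t e k,
      map_powerTrace f t e (k + 1)]

variable {R : Type*} [Ring R]

theorem pow_add_pow_eq (α : h →+* R) {x y : R} {t e : h} (hc : Commute x y) (hs : x + y = α t)
    (hp : x * y = α e) : ∀ k, x ^ k + y ^ k = α (powerTrace t e k)
  | 0 => by simp [powerTrace, map_ofNat, one_add_one_eq_two]
  | 1 => by simpa [powerTrace] using hs
  | (k + 2) => by
    have e1 : y * x ^ (k + 1) = x * y * x ^ k := by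
      rw [pow_succ', ← mul_assoc, hc.eq]
    have e2 : x * y ^ (k + 1) = x * y * y ^ k := by rw [pow_succ', ← mul_assoc]
    have key : x ^ (k + 2) + y ^ (k + 2) =
        (x + y) * (x ^ (k + 1) + y ^ (k + 1)) - x * y * (x ^ k + y ^ k) := by
      rw [add_mul, mul_add, mul_add, mul_add, e1, e2, ← pow_succ', ← pow_succ']
      abel
    rw [key, hs, hp, pow_add_pow_eq α hc hs hp k, pow_add_pow_eq α hc hs hp (k + 1), powerTrace,
      map_sub, map_mul, map_mul]

/-- The quadratic relation of a power. -/
theorem rel_pow (α : h →+* R) {x : R} {t e : h} (hc : Commute (α t) x)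
    (hx : x * x - α t * x + α e = 0) (k : ℕ) :
    x ^ k * x ^ k - α (powerTrace t e k) * x ^ k + α (e ^ k) = 0 := by
  set y := α t - x
  have hcy : Commute x y := hc.symm.sub_right (Commute.refl x)
  have hs : x + y = α t := add_sub_cancel x (α t)
  have hp : x * y = α e := by
    rw [← sub_eq_zero, ← neg_eq_zero]
    calc -(x * (α t - x) - α e) = x * x - x * α t + α e := by rw [mul_sub]; abel
      _ = 0 := by rw [← hc.eq, hx]
  rw [← pow_add_pow_eq α hcy hs hp k, map_pow, ← hp, hcy.mul_pow, add_mul, ← (hcy.pow_pow k k).eq]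
  abel

/-- Traces of powers of a `2 × 2` matrix. -/
theorem trace_pow_fin_two {B : Type*} [CommRing B] (X : Matrix (Fin 2) (Fin 2) B) (k : ℕ) :
    trace (X ^ k) = powerTrace (trace X) (det X) k := by
  have h := pow_add_pow_eq (algebraMap B (Matrix (Fin 2) (Fin 2) B))
    (x := X) (y := adjugate X) (t := trace X) (e := det X)
    (show X * adjugate X = adjugate X * X by rw [mul_adjugate, adjugate_mul])
    (by rw [add_adjugate_fin_two, Algebra.algebraMap_eq_smul_one])
    (by rw [mul_adjugate, Algebra.algebraMap_eq_smul_one]) k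
  rw [← adjugate_pow, add_adjugate_fin_two, Algebra.algebraMap_eq_smul_one] at h
  simpa using congrFun (congrFun h 0) 0

theorem charpoly_coeffs_fin_two {B : Type*} [CommRing B] [Nontrivial B]
    (X : Matrix (Fin 2) (Fin 2) B) {t e : B}
    (hX : X.charpoly = Polynomial.X ^ 2 - Polynomial.C t * Polynomial.X + Polynomial.C e) :
    trace X = t ∧ det X = e := by
  rw [charpoly_fin_two] at hX
  constructor
  · simpa [Polynomial.coeff_C, Polynomial.coeff_X_pow] using
      congrArg (fun P => Polynomial.coeff P 1) hX
  · simpa [Polynomial.coeff_C, Polynomial.coeff_X_pow] using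
      congrArg (fun P => Polynomial.coeff P 0) hX

section Map

variable {G : Type*} [Group G] {R' : Type*} [Ring R'] {B : Type*} [CommRing B]
  {α : h →+* R} {act : G →* R} {d : G →* h} {φ : h →+* B}
  {r : G →* Matrix (Fin 2) (Fin 2) B}

/-- The hypotheses only depend on `R` up to an injective homomorphism. -/
theorem TransferHyp.map (H : TransferHyp α act d φ r) (ψ : R →+* R')
    (hψ : Function.Injective ψ) :
    TransferHyp (ψ.comp α) (ψ.toMonoidHom.comp act) d φ r where
  comm a g := (H.comm a g).map ψ
  ker_le a ha := H.ker_le a (hψ (by rw [map_zero]; exact ha))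
  det_eq := H.det_eq
  rel g := by
    obtain ⟨c, hc, htr⟩ := H.rel g
    refine ⟨c, ?_, htr⟩
    have := congrArg ψ hc
    rw [map_zero, map_add, map_sub, map_mul, map_mul] at this
    exact this
  span_eq := H.span_eq

end Map

end Fermat.Agent.Datum
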