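import Fermat.Agent.Datum.Consequences
import Fermat.Agent.GaloisAdic.Inputs

/-!
# A Hecke–Galois datum is unramified outside `S`
-/

set_option autoImplicit false

namespace Fermat.Agent.Datum

/-- A point is unramified outside `S`. -/
theorem isUnramifiedAt_point {p : ℕ} [Fact p.Prime] {N : ℕ} [NeZero N] {S : Finset ℕ}
    {T : Type} [CommRing T] [IsLocalRing T] [IsNoetherianRing T]
    (hpT : (p : T) ∈ IsLocalRing.maximalIdeal T) (hpS : p ∈ S)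
    (hNS : ∀ q : ℕ, q.Prime → q ∣ N → q ∈ S) (H : HeckePoint N S T)
    (q : ℕ) (hq : q.Prime) (hqS : q ∉ S) : H.ρ.IsUnramifiedAt q := by
  intro P hP σ hσ
  obtain ⟨F⟩ := GaloisAdic.nonempty_torsionFrame N p
  exact rho_eq_one_of_fixes_torsion_point (GaloisAdic.torsionFacts N p) F hpS hpT hNS H
    fun n x hx => (GaloisAdic.torsionFacts N p).unramified q hq
      (fun h => hqS (hNS q hq h)) (fun h => hqS (h ▸ hpS)) P hP σ hσ n x hx

variable {p : ℕ} {N : ℕ} [NeZero N] {S : Finset ℕ}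
  {𝒪 : Type} [CommRing 𝒪] [IsDomain 𝒪] [IsDiscreteValuationRing 𝒪]
  [IsAdicComplete (IsLocalRing.maximalIdeal 𝒪) 𝒪]
  {θ : CuspForm.heckeAlgebra N 2 (↑S : Set ℕ) →+* IsLocalRing.ResidueField 𝒪}
  {T : Type} [CommRing T] [IsLocalRing T] [IsNoetherianRing T]
  [IsAdicComplete (IsLocalRing.maximalIdeal T) T] [Algebra 𝒪 T] [IsLocalHom (algebraMap 𝒪 T)]
  [Module.Finite 𝒪 T] [Module.Free 𝒪 T]

theorem isUnramifiedAt (hp : p.Prime)
    (hp𝒪 : (p : 𝒪) ∈ IsLocalRing.maximalIdeal 𝒪) (hpS : p ∈ S)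
    (hNS : ∀ q : ℕ, q.Prime → q ∣ N → q ∈ S)
    (H : CuspForm.HeckeGaloisRepDatum N (↑S : Set ℕ) 𝒪 θ T)
    (q : ℕ) (hq : q.Prime) (hqS : q ∉ S) :
    H.ρ.IsUnramifiedAt q := by
  have : Fact p.Prime := ⟨hp⟩
  intro P hP σ hσ
  obtain ⟨F⟩ := GaloisAdic.nonempty_torsionFrame N p
  exact rho_eq_one_of_fixes_torsion (GaloisAdic.torsionFacts N p) F hpS hp𝒪 hNS H
    fun n x hx => (GaloisAdic.torsionFacts N p).unramified q hq
      (fun h => hqS (hNS q hq h)) (fun h => hqS (h ▸ hpS)) P hP σ hσ n x hx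

end Fermat.Agent.Datum
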